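/-
S48lib / Eis1 / Main (helper5).
**The weight-one Eisenstein series of an odd Dirichlet character `χ` mod `N` (any level `N`).**

`eis1 χ hodd : ModularForm (Gamma1 N) 1`, unnormalised so that all its `q`-coefficients lie in
`ℤ[χ]`:
  `eis1 χ hodd = ∑_j χ(j) j  -  2N ∑_{n ≥ 1} (∑_{d ∣ n} χ(d)) qⁿ`,
with nebentypus `χ`: `eis1 ∣[1] γ = χ(d_γ) eis1` for `γ ∈ Γ₀(N)`.
-/
import Mathlib
import Fermat.Prelude.Def_FLTPrelim_Modularity
import Fermat.Agent.S48lib.Eis1.EisQ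

set_option autoImplicit false

noncomputable section

namespace Fermat.Agent.S48lib.Eis1

open Complex Real Filter Topology CongruenceSubgroup ModularForm
open UpperHalfPlane hiding I
open scoped Manifold MatrixGroups ModularForm

variable {N : ℕ} [NeZero N] (χ : DirichletCharacter ℂ N)

/-- the weight-one Eisenstein series of the odd character `χ` (constant term `∑_j χ(j) j`) -/
def eis1 (hodd : χ (-1) = -1) :
    ModularForm ((Gamma1 N : Subgroup SL(2, ℤ)) : Subgroup (GL (Fin 2) ℝ)) 1 :=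
  ((2 * π * I)⁻¹ : ℂ) • eisMF χ (chi_zero_of_odd χ hodd)

lemma eis1_apply (hodd : χ (-1) = -1) (τ : ℍ) :
    eis1 χ hodd τ = (2 * π * I)⁻¹ * eisFun χ τ := rfl

lemma coe_eis1 (hodd : χ (-1) = -1) :
    (⇑(eis1 χ hodd) : ℍ → ℂ) = ((2 * π * I)⁻¹ : ℂ) • eisFun χ := rfl

/-- **nebentypus** -/
theorem eis1_slash (hodd : χ (-1) = -1) (γ : SL(2, ℤ)) (hγ : γ ∈ Gamma0 N) :
    (⇑(eis1 χ hodd) : ℍ → ℂ) ∣[(1 : ℤ)] γ =
      χ ((γ 1 1 : ℤ) : ZMod N) • (⇑(eis1 χ hodd) : ℍ → ℂ) := by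
  rw [coe_eis1, SL_smul_slash, eisFun_slash χ (chi_zero_of_odd χ hodd) γ hγ, smul_comm]

/-- **the `q`-expansion** -/
theorem hasSum_eis1 (hodd : χ (-1) = -1) (τ : ℍ) :
    HasSum (fun n : ℕ => eisCoeff χ n * Function.Periodic.qParam 1 τ ^ n) (eis1 χ hodd τ) := by
  have h := hasSum_eisFun χ hodd τ
  have e : Function.Periodic.qParam 1 (τ : ℂ) = ww τ := by
    rw [Function.Periodic.qParam, ww]
    simp
  rw [e, eis1_apply]
  exact h

theorem one_mem_strictPeriods_Gamma1' (N : ℕ) :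
    (1 : ℝ) ∈ ((Gamma1 N : Subgroup SL(2, ℤ)) : Subgroup (GL (Fin 2) ℝ)).strictPeriods := by
  simp [CongruenceSubgroup.strictPeriods_Gamma1]

/-- the `q`-coefficients in the Prelude's normalisation -/
theorem qCoeff_eis1 (hodd : χ (-1) = -1) (n : ℕ) :
    ModularFormClass.qCoeff (eis1 χ hodd) n = eisCoeff χ n := by
  rw [ModularFormClass.qCoeff]
  symm
  refine ModularFormClass.qExpansion_coeff_unique (c := eisCoeff χ) one_pos
    (one_mem_strictPeriods_Gamma1' N) (f := eis1 χ hodd) (fun τ => ?_) n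
  simpa [smul_eq_mul] using hasSum_eis1 χ hodd τ

lemma eisCoeff_zero : eisCoeff χ 0 = bernSum χ := by
  rw [eisCoeff, if_pos rfl]

lemma eisCoeff_of_ne_zero {n : ℕ} (hn : n ≠ 0) : eisCoeff χ n = -(2 * N) * sigmaChi χ n := by
  rw [eisCoeff, if_neg hn]

end Fermat.Agent.S48lib.Eis1
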