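/-
S48lib / Eis1 / Final (helper5).
`DS.EisQStmt` (the analytic Eisenstein input of the Deligne–Serre block) is a theorem:
`E := eis1 χ hodd` at prime level.
-/
import Mathlib
import Fermat.Agent.S48lib.Eis1.Main
import Fermat.Agent.S48lib.DS.EisWrap

set_option autoImplicit false

noncomputable section

namespace Fermat.Agent.S48lib.Eis1

open CongruenceSubgroup UpperHalfPlane
open scoped MatrixGroups ModularForm

/-- **`DS.EisQStmt`** -/
theorem eisQStmt : DS.EisQStmt := by
  intro ℓ hℓ χ hodd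
  have : NeZero ℓ := ⟨hℓ.out.ne_zero⟩
  refine ⟨eis1 χ hodd, eis1_slash χ hodd, ?_, ?_⟩
  · rw [qCoeff_eis1, eisCoeff_zero, bernSum]
  · intro n hn
    rw [qCoeff_eis1, eisCoeff_of_ne_zero χ (by omega), sigmaChi]

/-- **`DS.Eis1Stmt`** -/
theorem eis1Stmt : DS.Eis1Stmt := DS.eis1Stmt_of_eisQ eisQStmt

end Fermat.Agent.S48lib.Eis1
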