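/-
S48lib / Eis1 / Zeta  (lead)

The Weierstrass `ζ`-function of a period pair `L` (Mathlib's `PeriodPair`):

  `zeta L z = ∑_{l ∈ Λ} (1/(z - l) + 1/l + z/l²)`   (the term `l = 0` is `1/z` by `1/0 = 0`),

locally uniform convergence, differentiability off the lattice, `deriv (zeta L) = -℘[L]` off the
lattice, oddness.
-/
import Mathlib

set_option autoImplicit false

noncomputable section

namespace Fermat.Agent.S48lib.Eis1

open PeriodPair Filter Topology

variable (L : PeriodPair)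

/-- the summand of the Weierstrass `ζ`-function -/
def zetaSummand (l z : ℂ) : ℂ := 1 / (z - l) + 1 / l + z / l ^ 2

theorem zetaSummand_zero_left (z : ℂ) : zetaSummand 0 z = 1 / z := by
  simp [zetaSummand]

theorem zetaSummand_eq {l z : ℂ} (hl : l ≠ 0) (hz : z ≠ l) :
    zetaSummand l z = z ^ 2 / (l ^ 2 * (z - l)) := by
  have : z - l ≠ 0 := sub_ne_zero.mpr hz
  rw [zetaSummand]
  field_simp
  ring

theorem zetaSummand_neg (l z : ℂ) : zetaSummand (-l) (-z) = - zetaSummand l z := by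
  simp only [zetaSummand, even_two, Even.neg_pow]
  rw [show -z - -l = -(z - l) by ring]
  simp only [one_div, inv_neg, neg_div]
  ring

theorem zetaSummand_bound (r : ℝ) (hr : 0 < r) (s : ℂ) (hs : ‖s‖ < r) (l : ℂ)
    (h : 2 * r ≤ ‖l‖) : ‖zetaSummand l s‖ ≤ 2 * r ^ 2 * ‖l‖ ^ (-3 : ℝ) := by
  have hl0 : 0 < ‖l‖ := by linarith
  have hl : l ≠ 0 := norm_pos_iff.mp hl0
  have hsl : s ≠ l := by rintro rfl; linarith
  rw [zetaSummand_eq hl hsl]
  have h1 : ‖l‖ / 2 ≤ ‖s - l‖ := by
    rw [norm_sub_rev]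
    exact le_trans (by linarith) (norm_sub_norm_le l s)
  have h2 : 0 < ‖s - l‖ := by linarith
  rw [norm_div, norm_mul, norm_pow, norm_pow, Real.rpow_neg hl0.le, ← div_eq_mul_inv]
  have h3 : (‖l‖ : ℝ) ^ (3 : ℝ) = ‖l‖ ^ 3 := by norm_cast
  rw [h3, div_le_div_iff₀ (by positivity) (by positivity)]
  have h4 : ‖s‖ ^ 2 ≤ r ^ 2 := by gcongr
  calc ‖s‖ ^ 2 * ‖l‖ ^ 3 ≤ r ^ 2 * ‖l‖ ^ 3 := by gcongr
    _ = 2 * r ^ 2 * (‖l‖ ^ 2 * (‖l‖ / 2)) := by ring
    _ ≤ 2 * r ^ 2 * (‖l‖ ^ 2 * ‖s - l‖) := by gcongr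

/-- The Weierstrass `ζ`-function. -/
def zeta (z : ℂ) : ℂ := ∑' l : L.lattice, zetaSummand l z

theorem hasSumLocallyUniformly_zeta :
    HasSumLocallyUniformly (fun (l : L.lattice) (z : ℂ) => zetaSummand l z) (zeta L) := by
  refine L.hasSumLocallyUniformly_aux (u := fun r l => 2 * r ^ 2 * ‖l‖ ^ (-3 : ℝ)) _
    (fun _ _ => (ZLattice.summable_norm_rpow _ _ (by simp; norm_num)).mul_left _) fun r hr =>
    Filter.eventually_atTop.mpr ⟨2 * r, ?_⟩
  rintro _ h s hs l rfl
  exact zetaSummand_bound r hr s hs l h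

theorem hasSum_zeta (z : ℂ) : HasSum (fun l : L.lattice => zetaSummand l z) (zeta L z) :=
  (hasSumLocallyUniformly_zeta L).hasSum

theorem differentiableAt_zetaSummand {l z : ℂ} (hz : z ≠ l) :
    DifferentiableAt ℂ (zetaSummand l) z := by
  unfold zetaSummand
  have : z - l ≠ 0 := sub_ne_zero.mpr hz
  fun_prop (disch := assumption)

theorem differentiableOn_zeta : DifferentiableOn ℂ (zeta L) (L.lattice : Set ℂ)ᶜ := by
  refine (hasSumLocallyUniformly_zeta L).hasSumLocallyUniformlyOn.differentiableOn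
    (.of_forall fun s => .fun_sum fun i _ => ?_) L.isClosed_lattice.isOpen_compl
  intro x hx
  refine (differentiableAt_zetaSummand ?_).differentiableWithinAt
  rintro rfl
  exact hx i.2

theorem deriv_zetaSummand {l z : ℂ} (hz : z ≠ l) :
    deriv (zetaSummand l) z = - (1 / (z - l) ^ 2 - 1 / l ^ 2) := by
  have h0 : z - l ≠ 0 := sub_ne_zero.mpr hz
  have h1 : HasDerivAt (fun z : ℂ => 1 / (z - l)) (-(1 / (z - l) ^ 2)) z := by
    have h := ((hasDerivAt_id z).sub_const l).inv h0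
    have e : -(1 / (z - l) ^ 2) = -1 / (id z - l) ^ 2 := by rw [id_eq, neg_div]
    rw [e]
    refine h.congr_of_eventuallyEq (.of_forall fun x => ?_)
    simp [one_div]
  have h2 : HasDerivAt (fun z : ℂ => z / l ^ 2) (1 / l ^ 2) z := by
    simpa using (hasDerivAt_id z).div_const (l ^ 2)
  have h3 : HasDerivAt (zetaSummand l) (-(1 / (z - l) ^ 2) + 0 + 1 / l ^ 2) z :=
    (h1.add (hasDerivAt_const z (1 / l))).add h2
  rw [h3.deriv]
  ring

/-- **`ζ' = -℘`** off the lattice. -/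
theorem deriv_zeta {z : ℂ} (hz : z ∉ L.lattice) : deriv (zeta L) z = - ℘[L] z := by
  have hopen : IsOpen (L.lattice : Set ℂ)ᶜ := L.isClosed_lattice.isOpen_compl
  have h1 := (hasSumLocallyUniformly_zeta L).tendstoLocallyUniformlyOn (s := (L.lattice : Set ℂ)ᶜ)
  have h2 : ∀ s : Finset L.lattice,
      DifferentiableOn ℂ (fun z => ∑ l ∈ s, zetaSummand l z) (L.lattice : Set ℂ)ᶜ := by
    intro s
    refine .fun_sum fun i _ => ?_
    intro x hx
    refine (differentiableAt_zetaSummand ?_).differentiableWithinAt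
    rintro rfl
    exact hx i.2
  have h3 := h1.deriv (.of_forall h2) hopen
  have h4 : TendstoLocallyUniformlyOn
      (fun (s : Finset L.lattice) (z : ℂ) => ∑ l ∈ s, -(1 / (z - l) ^ 2 - 1 / (l : ℂ) ^ 2))
      (fun z => - ℘[L] z) atTop (L.lattice : Set ℂ)ᶜ := by
    have := (L.hasSumLocallyUniformly_weierstrassP.tendstoLocallyUniformlyOn
      (s := (L.lattice : Set ℂ)ᶜ)).neg
    refine this.congr ?_
    intro s x _
    simp
  have h5 : TendstoLocallyUniformlyOn
      (deriv ∘ fun (s : Finset L.lattice) (z : ℂ) => ∑ l ∈ s, zetaSummand l z)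
      (fun z => - ℘[L] z) atTop (L.lattice : Set ℂ)ᶜ := by
    refine h4.congr ?_
    intro s x hx
    simp only [Function.comp_apply]
    rw [deriv_fun_sum]
    · refine Finset.sum_congr rfl fun l _ => ?_
      rw [deriv_zetaSummand]
      rintro rfl
      exact hx l.2
    · intro l _
      refine differentiableAt_zetaSummand ?_
      rintro rfl
      exact hx l.2
  exact h3.unique h5 hz

theorem zeta_neg (z : ℂ) : zeta L (-z) = - zeta L z := by
  simp only [zeta]
  rw [← (Equiv.neg L.lattice).tsum_eq, ← tsum_neg]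
  congr with l
  simp only [Equiv.neg_apply, NegMemClass.coe_neg]
  exact zetaSummand_neg _ _

end Fermat.Agent.S48lib.Eis1
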