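/-
S48lib / Eis1 / ZetaPeriods  (lead)

Quasi-periods of the Weierstrass `ζ`-function: `zeta L (z + l) = zeta L z + eta L l` for
`z ∉ Λ`, `eta L : Λ →+ ℂ`; its `ℝ`-linear extension `etaR L : ℂ →ₗ[ℝ] ℂ`; the lattice-periodic
(non-holomorphic) function `Zfun L z = zeta L z - etaR L z`.
-/
import Mathlib
import Fermat.Agent.S48lib.Eis1.Zeta

set_option autoImplicit false

noncomputable section

namespace Fermat.Agent.S48lib.Eis1

open PeriodPair Filter Topology

variable (L : PeriodPair)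

theorem isOpen_compl_lattice : IsOpen (L.lattice : Set ℂ)ᶜ := L.isClosed_lattice.isOpen_compl

theorem isPreconnected_compl_lattice : IsPreconnected (L.lattice : Set ℂ)ᶜ := by
  refine (Set.Countable.isConnected_compl_of_one_lt_rank (by simp) ?_).2
  exact countable_of_Lindelof_of_discrete (X := L.lattice)

theorem add_coe_notMem {z : ℂ} (hz : z ∉ L.lattice) (l : L.lattice) : z + l ∉ L.lattice :=
  fun h => hz (by simpa using sub_mem h l.2)

/-- the base point `ω₁ / 2` -/
def basePt : ℂ := L.ω₁ / 2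

theorem basePt_notMem : basePt L ∉ L.lattice := L.ω₁_div_two_notMem_lattice

/-- the quasi-period of `l ∈ Λ` -/
def etaFun (l : L.lattice) : ℂ := zeta L (basePt L + l) - zeta L (basePt L)

/-- **quasi-periodicity of `ζ`** -/
theorem zeta_add_coe {z : ℂ} (hz : z ∉ L.lattice) (l : L.lattice) :
    zeta L (z + l) = zeta L z + etaFun L l := by
  have hd1 : DifferentiableOn ℂ (fun z => zeta L (z + l)) (L.lattice : Set ℂ)ᶜ := by
    refine (differentiableOn_zeta L).comp (f := (· + l.1)) (by fun_prop) ?_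
    intro x hx
    exact add_coe_notMem L hx l
  have hd : DifferentiableOn ℂ (fun z => zeta L (z + l) - zeta L z) (L.lattice : Set ℂ)ᶜ :=
    hd1.sub (differentiableOn_zeta L)
  have hderiv : (L.lattice : Set ℂ)ᶜ.EqOn (deriv (fun z => zeta L (z + l) - zeta L z)) 0 := by
    intro x hx
    have hx' : x + l ∉ L.lattice := add_coe_notMem L hx l
    have e1 : DifferentiableAt ℂ (fun z => zeta L (z + l)) x :=
      hd1.differentiableAt ((isOpen_compl_lattice L).mem_nhds hx)
    have e2 : DifferentiableAt ℂ (zeta L) x :=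
      (differentiableOn_zeta L).differentiableAt ((isOpen_compl_lattice L).mem_nhds hx)
    rw [deriv_fun_sub e1 e2, deriv_comp_add_const, deriv_zeta L hx', deriv_zeta L hx,
      L.weierstrassP_add_coe]
    simp
  have := (isOpen_compl_lattice L).is_const_of_deriv_eq_zero (isPreconnected_compl_lattice L) hd
    hderiv (x := z) (y := basePt L) hz (basePt_notMem L)
  rw [etaFun, ← this]
  ring

theorem etaFun_add (l l' : L.lattice) : etaFun L (l + l') = etaFun L l + etaFun L l' := by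
  have h1 := zeta_add_coe L (basePt_notMem L) (l + l')
  have h2 := zeta_add_coe L (basePt_notMem L) l
  have h3 := zeta_add_coe L (add_coe_notMem L (basePt_notMem L) l) l'
  have e : basePt L + ((l + l' : L.lattice) : ℂ) = basePt L + l + l' := by
    push_cast; ring
  rw [e, h3, h2] at h1
  linear_combination -h1

/-- the quasi-period homomorphism `η : Λ →+ ℂ` -/
def eta : L.lattice →+ ℂ where
  toFun := etaFun L
  map_zero' := by simp [etaFun]
  map_add' := etaFun_add L

theorem zeta_add_coe' {z : ℂ} (hz : z ∉ L.lattice) (l : L.lattice) :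
    zeta L (z + l) = zeta L z + eta L l := zeta_add_coe L hz l

/-- `η(l) = 2 ζ(l/2)` for `l/2 ∉ Λ` -/
theorem eta_eq_two_mul {l : L.lattice} (hl : (l : ℂ) / 2 ∉ L.lattice) :
    eta L l = 2 * zeta L (l / 2) := by
  have hl' : -((l : ℂ) / 2) ∉ L.lattice := fun h => hl (by simpa using neg_mem h)
  have h := zeta_add_coe' L hl' l
  rw [show -((l : ℂ) / 2) + l = l / 2 by ring, zeta_neg] at h
  linear_combination -h

/-- the `ℝ`-linear extension of the quasi-period map -/
def etaR : ℂ →ₗ[ℝ] ℂ :=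
  L.basis.constr ℝ ![eta L ⟨L.ω₁, L.ω₁_mem_lattice⟩, eta L ⟨L.ω₂, L.ω₂_mem_lattice⟩]

theorem etaR_ω₁ : etaR L L.ω₁ = eta L ⟨L.ω₁, L.ω₁_mem_lattice⟩ := by
  have := L.basis.constr_basis ℝ ![eta L ⟨L.ω₁, L.ω₁_mem_lattice⟩, eta L ⟨L.ω₂, L.ω₂_mem_lattice⟩] 0
  simpa [etaR] using this

theorem etaR_ω₂ : etaR L L.ω₂ = eta L ⟨L.ω₂, L.ω₂_mem_lattice⟩ := by
  have := L.basis.constr_basis ℝ ![eta L ⟨L.ω₁, L.ω₁_mem_lattice⟩, eta L ⟨L.ω₂, L.ω₂_mem_lattice⟩] 1
  simpa [etaR] using this

theorem etaR_coe (l : L.lattice) : etaR L l = eta L l := by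
  obtain ⟨m, n, h⟩ := mem_lattice.mp l.2
  have e1 : (l : ℂ) = (m : ℝ) • L.ω₁ + (n : ℝ) • L.ω₂ := by
    rw [← h]; simp [Complex.real_smul]
  have e2 : l = m • (⟨L.ω₁, L.ω₁_mem_lattice⟩ : L.lattice) +
      n • (⟨L.ω₂, L.ω₂_mem_lattice⟩ : L.lattice) := by
    apply Subtype.ext
    rw [← h]; simp
  rw [e1, map_add, map_smul, map_smul, etaR_ω₁, etaR_ω₂]
  conv_rhs => rw [e2]
  rw [map_add, map_zsmul, map_zsmul]
  simp [Complex.real_smul]

/-- the lattice-periodic, non-holomorphic modification of `ζ` -/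
def Zfun (z : ℂ) : ℂ := zeta L z - etaR L z

theorem Zfun_add_coe {z : ℂ} (hz : z ∉ L.lattice) (l : L.lattice) :
    Zfun L (z + l) = Zfun L z := by
  rw [Zfun, Zfun, zeta_add_coe' L hz, map_add, etaR_coe]
  ring

theorem Zfun_neg (z : ℂ) : Zfun L (-z) = - Zfun L z := by
  rw [Zfun, Zfun, zeta_neg, map_neg]
  ring

end Fermat.Agent.S48lib.Eis1
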