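/-
S48lib / Eis1 / ZetaHomog  (lead)

Homogeneity of degree `-1` of `zeta`, `eta`, `etaR`, `Zfun` under scaling of the period pair, and
dependence on the lattice only.
-/
import Mathlib
import Fermat.Agent.S48lib.Eis1.ZetaPeriods

set_option autoImplicit false

noncomputable section

namespace Fermat.Agent.S48lib.Eis1

open PeriodPair Filter Topology

/-- scaling a period pair by `c ≠ 0` -/
def scalePair (c : ℂ) (hc : c ≠ 0) (L : PeriodPair) : PeriodPair where
  ω₁ := c * L.ω₁
  ω₂ := c * L.ω₂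
  indep := by
    have h := L.indep
    rw [LinearIndependent.pair_iff] at h ⊢
    intro s t hst
    apply h s t
    have : c * (s • L.ω₁ + t • L.ω₂) = 0 := by
      rw [← hst]
      simp only [Complex.real_smul]
      ring
    exact (mul_eq_zero.mp this).resolve_left hc

variable (c : ℂ) (hc : c ≠ 0) (L : PeriodPair)

@[simp] theorem scalePair_ω₁ : (scalePair c hc L).ω₁ = c * L.ω₁ := rfl
@[simp] theorem scalePair_ω₂ : (scalePair c hc L).ω₂ = c * L.ω₂ := rfl

theorem mem_scalePair_lattice {x : ℂ} :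
    x ∈ (scalePair c hc L).lattice ↔ ∃ l ∈ L.lattice, x = c * l := by
  constructor
  · intro h
    obtain ⟨m, n, rfl⟩ := mem_lattice.mp h
    refine ⟨m * L.ω₁ + n * L.ω₂, mem_lattice.mpr ⟨m, n, rfl⟩, ?_⟩
    simp only [scalePair_ω₁, scalePair_ω₂]
    ring
  · rintro ⟨l, hl, rfl⟩
    obtain ⟨m, n, rfl⟩ := mem_lattice.mp hl
    refine mem_lattice.mpr ⟨m, n, ?_⟩
    simp only [scalePair_ω₁, scalePair_ω₂]
    ring

theorem mul_mem_scalePair_lattice {l : ℂ} (hl : l ∈ L.lattice) :
    c * l ∈ (scalePair c hc L).lattice :=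
  (mem_scalePair_lattice c hc L).mpr ⟨l, hl, rfl⟩

theorem mul_mem_scalePair_lattice_iff {z : ℂ} :
    c * z ∈ (scalePair c hc L).lattice ↔ z ∈ L.lattice := by
  constructor
  · intro h
    obtain ⟨l, hl, e⟩ := (mem_scalePair_lattice c hc L).mp h
    rwa [mul_left_cancel₀ hc e]
  · exact mul_mem_scalePair_lattice c hc L

/-- the bijection `l ↦ c l` between the lattices -/
def scaleEquiv : L.lattice ≃ (scalePair c hc L).lattice where
  toFun l := ⟨c * l, mul_mem_scalePair_lattice c hc L l.2⟩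
  invFun l := ⟨c⁻¹ * l, by
    obtain ⟨l', hl', e⟩ := (mem_scalePair_lattice c hc L).mp l.2
    rw [e, inv_mul_cancel_left₀ hc]
    exact hl'⟩
  left_inv l := by
    apply Subtype.ext
    simp [inv_mul_cancel_left₀ hc]
  right_inv l := by
    apply Subtype.ext
    simp [mul_inv_cancel_left₀ hc]

@[simp] theorem coe_scaleEquiv (l : L.lattice) : ((scaleEquiv c hc L l : _) : ℂ) = c * l := rfl

include hc in
theorem zetaSummand_mul_mul (l z : ℂ) :
    zetaSummand (c * l) (c * z) = c⁻¹ * zetaSummand l z := by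
  have h1 : c * c⁻¹ = 1 := mul_inv_cancel₀ hc
  simp only [zetaSummand, ← mul_sub, mul_inv, mul_pow, div_eq_mul_inv]
  linear_combination (z * c⁻¹ * (l ^ 2)⁻¹) * h1

/-- **homogeneity of `ζ`** -/
theorem zeta_scalePair (z : ℂ) : zeta (scalePair c hc L) (c * z) = c⁻¹ * zeta L z := by
  rw [zeta, zeta, ← (scaleEquiv c hc L).tsum_eq, ← tsum_mul_left]
  congr with l
  rw [coe_scaleEquiv, zetaSummand_mul_mul c hc]

theorem basePt_scalePair : basePt (scalePair c hc L) = c * basePt L := by
  simp [basePt, mul_div_assoc]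

theorem eta_scalePair (l : L.lattice) :
    eta (scalePair c hc L) (scaleEquiv c hc L l) = c⁻¹ * eta L l := by
  show etaFun _ _ = c⁻¹ * etaFun L l
  rw [etaFun, etaFun, basePt_scalePair, coe_scaleEquiv, ← mul_add, zeta_scalePair, zeta_scalePair]
  ring

theorem etaR_scalePair (z : ℂ) : etaR (scalePair c hc L) (c * z) = c⁻¹ * etaR L z := by
  have key : (etaR (scalePair c hc L)).comp (LinearMap.mulLeft ℝ c) =
      (LinearMap.mulLeft ℝ c⁻¹).comp (etaR L) := by
    refine L.basis.ext fun i => ?_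
    fin_cases i
    · simp only [Fin.zero_eta, basis_zero, LinearMap.comp_apply, LinearMap.mulLeft_apply]
      have h1 := etaR_coe (scalePair c hc L) (scaleEquiv c hc L ⟨L.ω₁, L.ω₁_mem_lattice⟩)
      rw [coe_scaleEquiv] at h1
      rw [h1, eta_scalePair, etaR_ω₁]
    · simp only [Fin.mk_one, basis_one, LinearMap.comp_apply, LinearMap.mulLeft_apply]
      have h1 := etaR_coe (scalePair c hc L) (scaleEquiv c hc L ⟨L.ω₂, L.ω₂_mem_lattice⟩)
      rw [coe_scaleEquiv] at h1
      rw [h1, eta_scalePair, etaR_ω₂]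
  exact LinearMap.congr_fun key z

/-- **homogeneity of `Z = ζ - η_ℝ`** -/
theorem Zfun_scalePair (z : ℂ) : Zfun (scalePair c hc L) (c * z) = c⁻¹ * Zfun L z := by
  rw [Zfun, Zfun, zeta_scalePair, etaR_scalePair]
  ring

/-! ### dependence on the lattice only -/

variable {L} {L' : PeriodPair}

theorem zeta_congr (h : L.lattice = L'.lattice) : zeta L = zeta L' := by
  funext z
  rw [zeta, zeta]
  have e : (L.lattice : Set ℂ) = (L'.lattice : Set ℂ) := congrArg _ h
  exact (Equiv.setCongr e).tsum_eq (fun l : (L'.lattice : Set ℂ) => zetaSummand (l : ℂ) z)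

theorem etaR_unique (f : ℂ →ₗ[ℝ] ℂ) (hf : ∀ l : L.lattice, f l = eta L l) : f = etaR L := by
  refine L.basis.ext fun i => ?_
  fin_cases i
  · simp only [Fin.zero_eta, basis_zero]
    rw [etaR_ω₁]
    exact hf ⟨L.ω₁, L.ω₁_mem_lattice⟩
  · simp only [Fin.mk_one, basis_one]
    rw [etaR_ω₂]
    exact hf ⟨L.ω₂, L.ω₂_mem_lattice⟩

theorem etaR_congr (h : L.lattice = L'.lattice) : etaR L = etaR L' := by
  symm
  apply etaR_unique
  intro l
  have hl' : (l : ℂ) ∈ L'.lattice := h ▸ l.2
  have hb : basePt L ∉ L'.lattice := h ▸ basePt_notMem L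
  have h1 := zeta_add_coe' L' hb ⟨l, hl'⟩
  have h2 := zeta_add_coe' L (basePt_notMem L) l
  rw [etaR_coe L' ⟨l, hl'⟩]
  rw [← zeta_congr h] at h1
  simp only at h1
  linear_combination h2 - h1

theorem Zfun_congr (h : L.lattice = L'.lattice) : Zfun L = Zfun L' := by
  funext z
  rw [Zfun, Zfun, zeta_congr h, etaR_congr h]

end Fermat.Agent.S48lib.Eis1
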