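/-
S48lib / Eis1 / ZetaModular  (lead)

The weight-one transformation law of the division values of `Z = ζ - η_ℝ`:
for `τ ∈ ℍ`, `L_τ = (τ, 1)` (the tree's `periodPairOf 1 _ τ`), `v ∈ ℤ²`, `N ≥ 1`,

  `Zdiv N v τ = Z(L_τ; (v₀ τ + v₁)/N)`,   `Zdiv N v (γ • τ) = (cτ + d) · Zdiv N (v ᵥ* γ) τ`,

`Zdiv N (v + N w) τ = Zdiv N v τ`, `Zdiv N (-v) τ = - Zdiv N v τ`.
-/
import Mathlib
import Fermat.Agent.S48lib.Eis1.ZetaHomog
import Fermat.Agent.ProgramR.LevelOne.JInjective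

set_option autoImplicit false

noncomputable section

namespace Fermat.Agent.S48lib.Eis1

open PeriodPair UpperHalfPlane
open scoped MatrixGroups

/-- the period pair `(τ, 1)` -/
abbrev tauPair (τ : ℍ) : PeriodPair :=
  Fermat.Agent.ProgramR.LevelOne.periodPairOf 1 one_ne_zero τ

theorem mem_tauPair_lattice {τ : ℍ} {x : ℂ} :
    x ∈ (tauPair τ).lattice ↔ ∃ m n : ℤ, (m : ℂ) * τ + n = x := by
  rw [mem_lattice]
  simp [tauPair]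

/-- the division point `(v₀ τ + v₁)/N` -/
def divPt (N : ℕ) (v : Fin 2 → ℤ) (τ : ℍ) : ℂ := ((v 0 : ℂ) * τ + v 1) / N

/-- a division point lies in the lattice iff `v ≡ 0 mod N` -/
theorem divPt_mem_lattice_iff {N : ℕ} (hN : N ≠ 0) (v : Fin 2 → ℤ) (τ : ℍ) :
    divPt N v τ ∈ (tauPair τ).lattice ↔ (N : ℤ) ∣ v 0 ∧ (N : ℤ) ∣ v 1 := by
  have hN' : (N : ℂ) ≠ 0 := Nat.cast_ne_zero.mpr hN
  rw [mem_tauPair_lattice]
  constructor
  · rintro ⟨m, n, h⟩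
    rw [divPt, eq_div_iff hN'] at h
    -- compare imaginary and real parts
    have h1 : ((m * N - v 0 : ℤ) : ℂ) * τ + ((n * N - v 1 : ℤ) : ℂ) = 0 := by
      push_cast
      linear_combination h
    have him := congrArg Complex.im h1
    have hτ : (τ : ℂ).im ≠ 0 := τ.im_ne_zero
    simp only [Complex.add_im, Complex.mul_im, Complex.intCast_re, Complex.intCast_im, zero_mul,
      add_zero, Complex.zero_im] at him
    have hm : ((m * N - v 0 : ℤ) : ℝ) = 0 := (mul_eq_zero.mp him).resolve_right hτ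
    have hm' : m * N - v 0 = 0 := by exact_mod_cast hm
    rw [hm'] at h1
    simp only [Int.cast_zero, zero_mul, zero_add] at h1
    have hn' : n * N - v 1 = 0 := by exact_mod_cast h1
    exact ⟨⟨m, by linarith⟩, ⟨n, by linarith⟩⟩
  · rintro ⟨⟨m, hm⟩, ⟨n, hn⟩⟩
    refine ⟨m, n, ?_⟩
    rw [divPt, hm, hn, eq_div_iff hN']
    push_cast
    ring

/-- **the division values of `Z`** -/
def Zdiv (N : ℕ) (v : Fin 2 → ℤ) (τ : ℍ) : ℂ := Zfun (tauPair τ) (divPt N v τ)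

theorem coe_smul_eq (γ : SL(2, ℤ)) (τ : ℍ) :
    ((γ • τ : ℍ) : ℂ) = ((γ 0 0 : ℂ) * τ + γ 0 1) / ((γ 1 0 : ℂ) * τ + γ 1 1) := by
  rw [UpperHalfPlane.coe_specialLinearGroup_apply]
  simp

theorem denom_eq (γ : SL(2, ℤ)) (τ : ℍ) : denom γ τ = (γ 1 0 : ℂ) * τ + γ 1 1 := by
  exact ModularGroup.denom_apply γ τ

theorem denom_ne_zero' (γ : SL(2, ℤ)) (τ : ℍ) : (γ 1 0 : ℂ) * τ + γ 1 1 ≠ 0 := by
  rw [← denom_eq]
  exact UpperHalfPlane.denom_ne_zero _ τ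

/-- the lattice of `γ τ` is the lattice of `τ` scaled by `(cτ + d)⁻¹` -/
theorem tauPair_smul_lattice (γ : SL(2, ℤ)) (τ : ℍ) :
    (tauPair (γ • τ)).lattice =
      (scalePair ((γ 1 0 : ℂ) * τ + γ 1 1)⁻¹ (inv_ne_zero (denom_ne_zero' γ τ))
        (tauPair τ)).lattice := by
  have hd := denom_ne_zero' γ τ
  have hdet : (γ 0 0 : ℤ) * γ 1 1 - γ 0 1 * γ 1 0 = 1 := by
    have := γ.det_coe
    rw [Matrix.det_fin_two] at this
    exact this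
  have hdetC : (γ 0 0 : ℂ) * γ 1 1 - γ 0 1 * γ 1 0 = 1 := by exact_mod_cast hdet
  have hDD : ((γ 1 0 : ℂ) * τ + γ 1 1)⁻¹ * ((γ 1 0 : ℂ) * τ + γ 1 1) = 1 := inv_mul_cancel₀ hd
  ext x
  rw [mem_scalePair_lattice, mem_tauPair_lattice]
  constructor
  · rintro ⟨m, n, rfl⟩
    refine ⟨((m * γ 0 0 + n * γ 1 0 : ℤ) : ℂ) * τ + ((m * γ 0 1 + n * γ 1 1 : ℤ) : ℂ),
      mem_tauPair_lattice.mpr ⟨_, _, rfl⟩, ?_⟩
    rw [coe_smul_eq, div_eq_mul_inv]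
    push_cast
    linear_combination (-(n : ℂ)) * hDD
  · rintro ⟨l, hl, rfl⟩
    obtain ⟨m', n', rfl⟩ := mem_tauPair_lattice.mp hl
    refine ⟨m' * γ 1 1 - n' * γ 1 0, -m' * γ 0 1 + n' * γ 0 0, ?_⟩
    rw [coe_smul_eq, div_eq_mul_inv]
    push_cast
    linear_combination (((γ 1 0 : ℂ) * τ + γ 1 1)⁻¹ * ((m' : ℂ) * τ + n')) * hdetC -
      (-(m' : ℂ) * γ 0 1 + n' * γ 0 0) * hDD

theorem divPt_smul (N : ℕ) (v : Fin 2 → ℤ) (γ : SL(2, ℤ)) (τ : ℍ) :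
    divPt N v (γ • τ) =
      ((γ 1 0 : ℂ) * τ + γ 1 1)⁻¹ * divPt N (Matrix.vecMul v (γ : Matrix (Fin 2) (Fin 2) ℤ)) τ := by
  have hd := denom_ne_zero' γ τ
  have hDD : ((γ 1 0 : ℂ) * τ + γ 1 1)⁻¹ * ((γ 1 0 : ℂ) * τ + γ 1 1) = 1 := inv_mul_cancel₀ hd
  rw [divPt, divPt, coe_smul_eq]
  simp only [Matrix.vecMul, dotProduct, Fin.sum_univ_two]
  rw [div_eq_mul_inv, div_eq_mul_inv, div_eq_mul_inv]
  push_cast
  linear_combination (-(v 1 : ℂ) * (N : ℂ)⁻¹) * hDD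

/-- **weight-one transformation law** -/
theorem Zdiv_smul (N : ℕ) (v : Fin 2 → ℤ) (γ : SL(2, ℤ)) (τ : ℍ) :
    Zdiv N v (γ • τ) =
      denom γ τ * Zdiv N (Matrix.vecMul v (γ : Matrix (Fin 2) (Fin 2) ℤ)) τ := by
  rw [Zdiv, Zdiv, Zfun_congr (tauPair_smul_lattice γ τ), divPt_smul, Zfun_scalePair, inv_inv,
    denom_eq]

theorem Zdiv_neg (N : ℕ) (v : Fin 2 → ℤ) (τ : ℍ) : Zdiv N (-v) τ = - Zdiv N v τ := by
  rw [Zdiv, Zdiv, ← Zfun_neg]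
  congr 1
  simp only [divPt, Pi.neg_apply, Int.cast_neg]
  ring

/-- `Zdiv N v` only depends on `v` modulo `N` (for `v ≢ 0`) -/
theorem Zdiv_add_mul {N : ℕ} (hN : N ≠ 0) (v w : Fin 2 → ℤ) (τ : ℍ)
    (hv : ¬ ((N : ℤ) ∣ v 0 ∧ (N : ℤ) ∣ v 1)) :
    Zdiv N (v + (N : ℤ) • w) τ = Zdiv N v τ := by
  have hN' : (N : ℂ) ≠ 0 := Nat.cast_ne_zero.mpr hN
  have hmem : (w 0 : ℂ) * τ + w 1 ∈ (tauPair τ).lattice := mem_tauPair_lattice.mpr ⟨_, _, rfl⟩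
  have e : divPt N (v + (N : ℤ) • w) τ = divPt N v τ +
      ((⟨(w 0 : ℂ) * τ + w 1, hmem⟩ : (tauPair τ).lattice) : ℂ) := by
    simp only [divPt, Pi.add_apply, Pi.smul_apply, smul_eq_mul, Int.cast_add, Int.cast_mul,
      Int.cast_natCast]
    field_simp
    ring
  rw [Zdiv, Zdiv, e, Zfun_add_coe]
  rwa [divPt_mem_lattice_iff hN]

end Fermat.Agent.S48lib.Eis1
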