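/-
S48lib / Eis1 / ZetaRows  (lead)

Summation of the Weierstrass `ζ`-series of the lattice `ℤ τ + ℤ` by rows:

  `ζ(z) = ∑_m ( P_m(z) + z · D_m )`,
  `P_0 = π cot(π z)`, `P_m = π cot(π (z - m τ)) + π cot(π m τ)` (`m ≠ 0`), `D_m = ∑_n (m τ + n)⁻²`
  (`= EisensteinSeries.e2Summand m τ`).
-/
import Mathlib
import Fermat.Agent.S48lib.Eis1.ZetaModular

set_option autoImplicit false

noncomputable section

namespace Fermat.Agent.S48lib.Eis1

open Real Complex UpperHalfPlane EisensteinSeries PeriodPair Filter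

local notation "ℂ_ℤ" => Complex.integerComplement

theorem summable_pair (a b : ℂ) : Summable fun n : ℤ => ((a - n) * (b + n))⁻¹ := by
  apply summable_inv_of_isBigO_rpow_inv (a := 2) (by norm_cast)
  simpa [pow_two] using!
    (linear_inv_isBigO_right 1 b).mul ((linear_inv_isBigO_right 1 a).comp_neg_int)

theorem sub_int_ne_zero {a : ℂ} (ha : a ∈ ℂ_ℤ) (n : ℤ) : a - n ≠ 0 := by
  have := integerComplement_add_ne_zero ha (-n)
  simpa [sub_eq_add_neg] using this

theorem add_int_ne_zero {a : ℂ} (ha : a ∈ ℂ_ℤ) (n : ℤ) : a + n ≠ 0 :=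
  integerComplement_add_ne_zero ha n

theorem hasSum_cotTerm {a : ℂ} (ha : a ∈ ℂ_ℤ) :
    HasSum (fun n : ℕ => 1 / (a - (n + 1)) + 1 / (a + (n + 1))) (π * cot (π * a) - 1 / a) := by
  rw [cot_series_rep' ha]
  exact (summable_cotTerm ha).hasSum

/-- a general principle: the sum of a summable `f : ℤ → ℂ` from its symmetric pairs -/
theorem hasSum_int_of_pairs {f : ℤ → ℂ} (hf : Summable f) {s : ℂ}
    (hs : HasSum (fun n : ℕ => f (n + 1) + f (-(n + 1))) s) : HasSum f (f 0 + s) := by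
  obtain ⟨m, hm⟩ := hf
  have h1 := hm.nat_add_neg
  have h2 := (hasSum_nat_add_iff' 1).mpr h1
  simp only [Finset.range_one, Finset.sum_singleton, Nat.cast_zero, neg_zero] at h2
  have h3 : (fun n : ℕ => f ((n + 1 : ℕ) : ℤ) + f (-((n + 1 : ℕ) : ℤ))) =
      fun n : ℕ => f (n + 1) + f (-(n + 1)) := by
    funext n; push_cast; rfl
  rw [h3] at h2
  have := h2.unique hs
  have e : m = f 0 + s := by rw [← this]; ring
  rwa [← e]

/-- **the cotangent pair sum** -/
theorem hasSum_cot_pair {a b : ℂ} (ha : a ∈ ℂ_ℤ) (hb : b ∈ ℂ_ℤ) :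
    HasSum (fun n : ℤ => 1 / (a - n) + 1 / (b + n)) (π * cot (π * a) + π * cot (π * b)) := by
  have hsum : Summable fun n : ℤ => 1 / (a - n) + 1 / (b + n) := by
    refine ((summable_pair a b).mul_left (a + b)).congr fun n => ?_
    have h1 := sub_int_ne_zero ha n
    have h2 := add_int_ne_zero hb n
    field_simp
    ring
  have hpairs : HasSum (fun n : ℕ => (1 / (a - ((n + 1 : ℕ) : ℤ)) + 1 / (b + ((n + 1 : ℕ) : ℤ))) +
      (1 / (a - (-((n + 1 : ℕ) : ℤ) : ℤ)) + 1 / (b + (-((n + 1 : ℕ) : ℤ) : ℤ))))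
      ((π * cot (π * a) - 1 / a) + (π * cot (π * b) - 1 / b)) := by
    refine ((hasSum_cotTerm ha).add (hasSum_cotTerm hb)).congr_fun ?_  |>.congr_fun (fun _ => rfl)
    intro n
    push_cast
    ring
  have h := hasSum_int_of_pairs hsum (s := (π * cot (π * a) - 1 / a) + (π * cot (π * b) - 1 / b)) ?_
  · convert h using 1
    simp
    ring
  · refine hpairs.congr_fun fun n => ?_
    push_cast
    ring

/-- the row `m = 0`: `∑_n (1/(z - n) + 1/n) = π cot(π z)` (the term `n = 0` is `1/z`) -/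
theorem hasSum_cot_row_zero {a : ℂ} (ha : a ∈ ℂ_ℤ) :
    HasSum (fun n : ℤ => 1 / (a - n) + 1 / (n : ℂ)) (π * cot (π * a)) := by
  have hsum : Summable fun n : ℤ => 1 / (a - n) + 1 / (n : ℂ) := by
    have h0 := (summable_pair a 0).mul_left a
    refine (h0.congr_cofinite ?_)
    have : ∀ᶠ n : ℤ in cofinite, n ≠ 0 := by
      simpa using (Set.finite_singleton (0 : ℤ)).compl_mem_cofinite
    filter_upwards [this] with n hn
    have h1 := sub_int_ne_zero ha n
    have h2 : (n : ℂ) ≠ 0 := by exact_mod_cast hn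
    rw [zero_add]
    field_simp
    ring
  have h := hasSum_int_of_pairs hsum (s := π * cot (π * a) - 1 / a) ?_
  · convert h using 1
    simp
  · refine (hasSum_cotTerm ha).congr_fun fun n => ?_
    have hn : ((n : ℂ) + 1) ≠ 0 := by exact_mod_cast Nat.succ_ne_zero n
    push_cast
    field_simp
    ring


/-! ### elementary facts on `cot` -/

theorem cot_add_pi' (x : ℂ) : Complex.cot (x + π) = Complex.cot x := by
  rw [Complex.cot, Complex.cot, Complex.cos_add_pi, Complex.sin_add_pi, neg_div_neg_eq]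

theorem cot_neg' (x : ℂ) : Complex.cot (-x) = - Complex.cot x := by
  rw [Complex.cot, Complex.cot, Complex.cos_neg, Complex.sin_neg, div_neg]

theorem pi_cot_add_one (u : ℂ) : π * Complex.cot (π * (u + 1)) = π * Complex.cot (π * u) := by
  rw [mul_add, mul_one, cot_add_pi']

/-! ### the rows -/

/-- `D_m(τ) = ∑_n (m τ + n)⁻²` -/
def Drow (m : ℤ) (τ : ℍ) : ℂ := ∑' n : ℤ, (((m : ℂ) * τ + n) ^ 2)⁻¹

theorem summable_Drow (m : ℤ) (τ : ℍ) : Summable fun n : ℤ => (((m : ℂ) * τ + n) ^ 2)⁻¹ := by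
  have := linear_right_summable (τ : ℂ) m (k := 2) le_rfl
  exact_mod_cast this

theorem Drow_eq_e2Summand (m : ℤ) (τ : ℍ) : Drow m τ = e2Summand m τ := by
  rw [Drow, e2Summand]
  refine tsum_congr fun n => ?_
  simp [eisSummand, zpow_neg]

/-- `P_0 = π cot(π z)`, `P_m = π cot(π (z - m τ)) + π cot(π m τ)` -/
def Prow (τ : ℍ) (z : ℂ) (m : ℤ) : ℂ :=
  if m = 0 then π * Complex.cot (π * z)
  else π * Complex.cot (π * (z - m * τ)) + π * Complex.cot (π * (m * τ))

theorem Prow_add_one (τ : ℍ) (z : ℂ) (m : ℤ) : Prow τ (z + 1) m = Prow τ z m := by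
  unfold Prow
  split_ifs
  · exact pi_cot_add_one z
  · rw [show z + 1 - (m : ℂ) * τ = (z - m * τ) + 1 by ring, pi_cot_add_one]

theorem int_mul_tau_mem_integerComplement {m : ℤ} (hm : m ≠ 0) (τ : ℍ) :
    (m : ℂ) * τ ∈ ℂ_ℤ := by
  rintro ⟨n, hn⟩
  have := congrArg Complex.im hn
  simp only [Complex.intCast_im, Complex.mul_im, Complex.intCast_re, zero_mul, add_zero] at this
  have hτ : (τ : ℂ).im ≠ 0 := τ.im_ne_zero
  have : (m : ℝ) = 0 := by
    rcases mul_eq_zero.mp this.symm with h | h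
    · exact h
    · exact absurd h hτ
  exact hm (by exact_mod_cast this)

theorem sub_int_mul_tau_mem_integerComplement {τ : ℍ} {z : ℂ} (hz : z ∉ (tauPair τ).lattice)
    (m : ℤ) : z - (m : ℂ) * τ ∈ ℂ_ℤ := by
  rintro ⟨n, hn⟩
  exact hz (mem_tauPair_lattice.mpr ⟨m, n, by rw [hn]; ring⟩)

/-- the sum of the `m`-th row -/
theorem hasSum_row {τ : ℍ} {z : ℂ} (hz : z ∉ (tauPair τ).lattice) (m : ℤ) :
    HasSum (fun n : ℤ => zetaSummand ((m : ℂ) * τ + n) z) (Prow τ z m + z * Drow m τ) := by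
  have hD : HasSum (fun n : ℤ => z * (((m : ℂ) * τ + n) ^ 2)⁻¹) (z * Drow m τ) :=
    (summable_Drow m τ).hasSum.mul_left z
  by_cases hm : m = 0
  · subst hm
    have ha : z ∈ ℂ_ℤ := by simpa using sub_int_mul_tau_mem_integerComplement hz 0
    have h1 := (hasSum_cot_row_zero ha).add hD
    rw [Prow, if_pos rfl]
    refine h1.congr_fun fun n => ?_
    simp only [zetaSummand, Int.cast_zero, zero_mul, zero_add, div_eq_mul_inv]
  · have ha := sub_int_mul_tau_mem_integerComplement hz m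
    have hb := int_mul_tau_mem_integerComplement hm τ
    have h1 := (hasSum_cot_pair ha hb).add hD
    rw [Prow, if_neg hm]
    refine h1.congr_fun fun n => ?_
    simp only [zetaSummand, div_eq_mul_inv]
    rw [show z - ((m : ℂ) * τ + n) = z - (m : ℂ) * τ - n by ring]

/-- **`ζ` summed by rows** -/
theorem hasSum_zeta_rows {τ : ℍ} {z : ℂ} (hz : z ∉ (tauPair τ).lattice) :
    HasSum (fun m : ℤ => Prow τ z m + z * Drow m τ) (zeta (tauPair τ) z) := by
  have h0 := hasSum_zeta (tauPair τ) z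
  have h1 : HasSum (fun p : ℤ × ℤ => zetaSummand ((p.1 : ℂ) * τ + p.2) z)
      (zeta (tauPair τ) z) := by
    have := (Equiv.hasSum_iff (tauPair τ).latticeEquivProd.symm.toEquiv).mpr h0
    refine this.congr_fun fun p => ?_
    simp only [Function.comp_apply, LinearEquiv.coe_toEquiv]
    rw [latticeEquiv_symm_apply]
    simp [tauPair]
  exact h1.prod_fiberwise fun m => hasSum_row hz m

end Fermat.Agent.S48lib.Eis1
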