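/-
S48lib / Eis1 / ZetaLegendre  (lead)

For the lattice `ℤ τ + ℤ`: `η(1) = G₂(τ)` (Mathlib's `EisensteinSeries.G2`), the Legendre relation
`η(τ) = τ G₂(τ) - 2πi` (from Mathlib's `G2_S_transform` and homogeneity), hence

  `Z(z) = ζ(z) - η_ℝ(z) = (ζ(z) - z G₂(τ)) + 2πi x`   for `z = x τ + y`, `x, y ∈ ℝ`,

and `ζ(z) - z G₂(τ) = ∑_m P_m(z)`.
-/
import Mathlib
import Fermat.Agent.S48lib.Eis1.ZetaRows

set_option autoImplicit false

noncomputable section

namespace Fermat.Agent.S48lib.Eis1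

open UpperHalfPlane hiding I
open Real Complex EisensteinSeries PeriodPair Filter
open scoped MatrixGroups

local notation "ℂ_ℤ" => Complex.integerComplement

theorem one_mem_tauPair_lattice (τ : ℍ) : (1 : ℂ) ∈ (tauPair τ).lattice :=
  mem_tauPair_lattice.mpr ⟨0, 1, by simp⟩

theorem tau_mem_tauPair_lattice (τ : ℍ) : (τ : ℂ) ∈ (tauPair τ).lattice :=
  mem_tauPair_lattice.mpr ⟨1, 0, by simp⟩

/-- `η(1) = ∑_m D_m` -/
theorem hasSum_Drow (τ : ℍ) :
    HasSum (fun m : ℤ => Drow m τ) (eta (tauPair τ) ⟨1, one_mem_tauPair_lattice τ⟩) := by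
  have hz := basePt_notMem (tauPair τ)
  have hz1 : basePt (tauPair τ) + 1 ∉ (tauPair τ).lattice :=
    add_coe_notMem (tauPair τ) hz ⟨1, one_mem_tauPair_lattice τ⟩
  have h1 := hasSum_zeta_rows hz
  have h2 := hasSum_zeta_rows hz1
  have h3 := h2.sub h1
  have e := zeta_add_coe' (tauPair τ) hz ⟨1, one_mem_tauPair_lattice τ⟩
  simp only at e
  rw [e, add_sub_cancel_left] at h3
  refine h3.congr_fun fun m => ?_
  rw [Prow_add_one]
  ring

/-- **`η(1) = G₂(τ)`** -/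
theorem eta_one_eq_G2 (τ : ℍ) : eta (tauPair τ) ⟨1, one_mem_tauPair_lattice τ⟩ = G2 τ := by
  have h := hasSum_Drow τ
  have hs : Summable fun m : ℤ => e2Summand m τ := by
    refine h.summable.congr fun m => Drow_eq_e2Summand m τ
  rw [G2, tsum_eq_of_summable_unconditional hs, ← h.tsum_eq]
  exact tsum_congr fun m => Drow_eq_e2Summand m τ

theorem etaR_one_eq_G2 (τ : ℍ) : etaR (tauPair τ) 1 = G2 τ := by
  rw [← eta_one_eq_G2]
  exact etaR_coe (tauPair τ) ⟨1, one_mem_tauPair_lattice τ⟩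

/-- **Legendre's relation**: `η(τ) = τ G₂(τ) - 2πi` -/
theorem etaR_tau_eq (τ : ℍ) : etaR (tauPair τ) τ = τ * G2 τ - 2 * π * I := by
  have hτ : (τ : ℂ) ≠ 0 := τ.ne_zero
  -- the lattice of `S • τ` is `τ⁻¹ Λ_τ`
  have hlat := tauPair_smul_lattice ModularGroup.S τ
  have hden : ((ModularGroup.S 1 0 : ℤ) : ℂ) * τ + ((ModularGroup.S 1 1 : ℤ) : ℂ) = τ := by
    simp [ModularGroup.S]
  have h1 := etaR_congr hlat
  have h2 := etaR_scalePair _ (inv_ne_zero (denom_ne_zero' ModularGroup.S τ)) (tauPair τ) τ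
  rw [← h1, inv_inv, hden, inv_mul_cancel₀ hτ, etaR_one_eq_G2] at h2
  -- `G₂(S τ) = τ · η(τ)`
  have h3 := G2_S_transform τ
  rw [h2] at h3
  have h4 : G2 τ = (τ : ℂ)⁻¹ * etaR (tauPair τ) τ + 2 * π * I / τ := by
    rw [h3]
    field_simp
    ring
  rw [h4]
  field_simp
  ring

/-- `η_ℝ(x τ + y) = (x τ + y) G₂(τ) - 2πi x` -/
theorem etaR_apply (τ : ℍ) (x y : ℝ) :
    etaR (tauPair τ) ((x : ℂ) * τ + y) = ((x : ℂ) * τ + y) * G2 τ - 2 * π * I * x := by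
  have e : (x : ℂ) * τ + y = x • (τ : ℂ) + y • (1 : ℂ) := by
    simp [Complex.real_smul]
  rw [e, map_add, map_smul, map_smul, etaR_tau_eq, etaR_one_eq_G2]
  simp only [Complex.real_smul]
  ring

/-- **`Z` in terms of `ζ(z) - z G₂(τ)`** -/
theorem Zfun_apply (τ : ℍ) (x y : ℝ) :
    Zfun (tauPair τ) ((x : ℂ) * τ + y) =
      zeta (tauPair τ) ((x : ℂ) * τ + y) - ((x : ℂ) * τ + y) * G2 τ + 2 * π * I * x := by
  rw [Zfun, etaR_apply]
  ring

/-- `ζ(z) - z G₂(τ) = ∑_m P_m(z)` -/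
theorem hasSum_Prow {τ : ℍ} {z : ℂ} (hz : z ∉ (tauPair τ).lattice) :
    HasSum (fun m : ℤ => Prow τ z m) (zeta (tauPair τ) z - z * G2 τ) := by
  have h1 := hasSum_zeta_rows hz
  have h2 := (hasSum_Drow τ).mul_left z
  rw [eta_one_eq_G2] at h2
  refine (h1.sub h2).congr_fun fun m => ?_
  ring

/-- the same, summed over `m ≥ 1` in symmetric pairs -/
theorem hasSum_Prow_pairs {τ : ℍ} {z : ℂ} (hz : z ∉ (tauPair τ).lattice) :
    HasSum (fun m : ℕ => π * Complex.cot (π * (z - (m + 1 : ℕ) * τ)) +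
        π * Complex.cot (π * (z + (m + 1 : ℕ) * τ)))
      (zeta (tauPair τ) z - z * G2 τ - π * Complex.cot (π * z)) := by
  have h1 := (hasSum_Prow hz).nat_add_neg
  have h2 := (hasSum_nat_add_iff' 1).mpr h1
  simp only [Finset.range_one, Finset.sum_singleton, Nat.cast_zero, neg_zero] at h2
  have e0 : Prow τ z 0 = π * Complex.cot (π * z) := by rw [Prow, if_pos rfl]
  rw [e0] at h2
  have e1 : zeta (tauPair τ) z - z * G2 τ + π * Complex.cot (π * z) -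
      (π * Complex.cot (π * z) + π * Complex.cot (π * z)) =
      zeta (tauPair τ) z - z * G2 τ - π * Complex.cot (π * z) := by ring
  rw [e1] at h2
  refine h2.congr_fun fun m => ?_
  have hm : ((m + 1 : ℕ) : ℤ) ≠ 0 := by exact_mod_cast Nat.succ_ne_zero m
  have hm' : -((m + 1 : ℕ) : ℤ) ≠ 0 := neg_ne_zero.mpr hm
  rw [Prow, if_neg hm, Prow, if_neg hm']
  push_cast
  rw [show π * (-((m : ℂ) + 1) * (τ : ℂ)) = -(π * (((m : ℂ) + 1) * τ)) by ring, cot_neg']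
  rw [show z - -((m : ℂ) + 1) * (τ : ℂ) = z + ((m : ℂ) + 1) * τ by ring]
  ring

/-- **the division values of `Z` as a sum of cotangents** -/
theorem hasSum_Zdiv {N : ℕ} (hN : N ≠ 0) (v : Fin 2 → ℤ) (τ : ℍ)
    (hv : ¬ ((N : ℤ) ∣ v 0 ∧ (N : ℤ) ∣ v 1)) :
    HasSum (fun m : ℕ => π * Complex.cot (π * (divPt N v τ - (m + 1 : ℕ) * τ)) +
        π * Complex.cot (π * (divPt N v τ + (m + 1 : ℕ) * τ)))
      (Zdiv N v τ - 2 * π * I * ((v 0 : ℂ) / N) - π * Complex.cot (π * divPt N v τ)) := by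
  have hz : divPt N v τ ∉ (tauPair τ).lattice := by rwa [divPt_mem_lattice_iff hN]
  have h := hasSum_Prow_pairs hz
  have e : divPt N v τ = (((v 0 : ℝ) / (N : ℝ) : ℝ) : ℂ) * τ + (((v 1 : ℝ) / (N : ℝ) : ℝ) : ℂ) := by
    rw [divPt]
    push_cast
    ring
  have hZ : Zdiv N v τ = zeta (tauPair τ) (divPt N v τ) - divPt N v τ * G2 τ +
      2 * π * I * ((v 0 : ℂ) / N) := by
    rw [Zdiv]
    conv_lhs => rw [e]
    rw [Zfun_apply, ← e]
    push_cast
    ring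
  convert h using 1
  rw [hZ]
  ring

end Fermat.Agent.S48lib.Eis1
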