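/-
S48lib / Eis1 / Bridge (helper5).
The division values `Zdiv N v τ` in exponential form: with `w = e(z_v)`, `q = e(τ)`,

  `Zdiv N v τ = 2πi v₀/N - πi (1 + w)/(1 - w) + 2πi ∑_{m ≥ 1} (h(q^m / w) - h(q^m w))`,
  `h(y) = y/(1 - y)`,

for EVERY `v ≢ 0 mod N` (pure algebra on top of `hasSum_Zdiv`).
-/
import Mathlib
import Fermat.Agent.S48lib.Eis1.ZetaLegendre

set_option autoImplicit false

noncomputable section

namespace Fermat.Agent.S48lib.Eis1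

open Complex Real Filter Topology
open UpperHalfPlane hiding I

/-- `e(z) = exp(2πi z)` -/
def ww (z : ℂ) : ℂ := cexp (2 * π * I * z)

lemma ww_ne_zero (z : ℂ) : ww z ≠ 0 := Complex.exp_ne_zero _

lemma ww_add (z z' : ℂ) : ww (z + z') = ww z * ww z' := by
  rw [ww, ww, ww, mul_add, Complex.exp_add]

lemma ww_neg (z : ℂ) : ww (-z) = (ww z)⁻¹ := by
  rw [ww, ww, mul_neg, Complex.exp_neg]

lemma ww_sub (z z' : ℂ) : ww (z - z') = ww z / ww z' := by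
  rw [sub_eq_add_neg, ww_add, ww_neg, div_eq_mul_inv]

lemma ww_nat_mul (m : ℕ) (z : ℂ) : ww ((m : ℂ) * z) = ww z ^ m := by
  rw [ww, ww, ← Complex.exp_nat_mul]
  congr 1
  ring

lemma ww_zero : ww 0 = 1 := by simp [ww]

lemma ww_intCast (n : ℤ) : ww (n : ℂ) = 1 := by
  rw [ww, Complex.exp_eq_one_iff]
  exact ⟨n, by ring⟩

/-- `e(z) = 1` iff `z` is an integer -/
lemma ww_eq_one_iff (z : ℂ) : ww z = 1 ↔ ∃ n : ℤ, (n : ℂ) = z := by
  rw [ww, Complex.exp_eq_one_iff]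
  have h2 : (2 * π * I : ℂ) ≠ 0 := by
    simp [Real.pi_ne_zero, Complex.I_ne_zero]
  constructor
  · rintro ⟨n, hn⟩
    refine ⟨n, ?_⟩
    have : (2 * π * I : ℂ) * z = (2 * π * I) * n := by rw [hn]; ring
    exact (mul_left_cancel₀ h2 this).symm
  · rintro ⟨n, rfl⟩
    exact ⟨n, by ring⟩

lemma norm_ww (z : ℂ) : ‖ww z‖ = Real.exp (-2 * π * z.im) := by
  rw [ww, Complex.norm_exp]
  congr 1
  simp only [Complex.mul_re, Complex.mul_im, Complex.re_ofNat, Complex.im_ofNat, Complex.ofReal_re,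
    Complex.ofReal_im, Complex.I_re, Complex.I_im]
  ring

/-- `h(y) = y/(1 - y)` -/
def hh (y : ℂ) : ℂ := y / (1 - y)

/-- closed form of `π cot(π x)` -/
lemma pi_cot_eq (x : ℂ) :
    π * Complex.cot (π * x) = -(π * I) * ((1 + ww x) / (1 - ww x)) := by
  rw [Complex.cot_pi_eq_exp_ratio, ww, div_mul_eq_div_div_swap, div_I]
  ring

lemma pi_cot_eq' (x : ℂ) (hx : ww x ≠ 1) :
    π * Complex.cot (π * x) = -(π * I) - 2 * π * I * hh (ww x) := by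
  rw [pi_cot_eq, hh]
  have h1 : 1 - ww x ≠ 0 := sub_ne_zero.mpr (Ne.symm hx)
  field_simp
  ring

/-- closed form of a pair of cotangents -/
lemma pi_cot_pair {x₁ x₂ A C : ℂ} (hA : ww x₁ = A) (hC : ww x₂ = C⁻¹)
    (h1 : A ≠ 1) (h2 : C ≠ 1) (hC0 : C ≠ 0) :
    π * Complex.cot (π * x₁) + π * Complex.cot (π * x₂) = 2 * π * I * (hh C - hh A) := by
  rw [pi_cot_eq, pi_cot_eq, hA, hC, hh, hh]
  have h1' : 1 - A ≠ 0 := sub_ne_zero.mpr (Ne.symm h1)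
  have h2' : 1 - C ≠ 0 := sub_ne_zero.mpr (Ne.symm h2)
  have h3 : 1 - C⁻¹ ≠ 0 := by
    intro h
    apply h2
    have : C⁻¹ = 1 := by linear_combination -h
    rwa [inv_eq_one] at this
  have h4 : C - 1 ≠ 0 := sub_ne_zero.mpr h2
  field_simp
  ring

/-- the `m`-th term of the `q`-series of `Zdiv` -/
def phiTerm (w q : ℂ) (m : ℕ) : ℂ := hh (q ^ (m + 1) / w) - hh (q ^ (m + 1) * w)

lemma ww_ne_one_of_notMem {τ : ℍ} {z : ℂ} (hz : z ∉ (tauPair τ).lattice) (m : ℤ) :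
    ww (z + m * τ) ≠ 1 := by
  intro h
  obtain ⟨n, hn⟩ := (ww_eq_one_iff _).mp h
  refine hz (mem_tauPair_lattice.mpr ⟨-m, n, ?_⟩)
  rw [hn]
  push_cast
  ring

/-- **the division values of `Z` in exponential form** -/
theorem hasSum_Zdiv_phi {N : ℕ} (hN : N ≠ 0) (v : Fin 2 → ℤ) (τ : ℍ)
    (hv : ¬ ((N : ℤ) ∣ v 0 ∧ (N : ℤ) ∣ v 1)) :
    HasSum (fun m : ℕ => 2 * π * I * phiTerm (ww (divPt N v τ)) (ww τ) m)
      (Zdiv N v τ - 2 * π * I * ((v 0 : ℂ) / N) + π * I + 2 * π * I * hh (ww (divPt N v τ))) := by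
  have hz : divPt N v τ ∉ (tauPair τ).lattice := by rwa [divPt_mem_lattice_iff hN]
  have h := hasSum_Zdiv hN v τ hv
  have h0 : ww (divPt N v τ) ≠ 1 := by
    have := ww_ne_one_of_notMem hz 0
    simpa using this
  rw [pi_cot_eq' _ h0] at h
  have e : Zdiv N v τ - 2 * π * I * ((v 0 : ℂ) / N) - (-(π * I) - 2 * π * I * hh (ww (divPt N v τ))) =
      Zdiv N v τ - 2 * π * I * ((v 0 : ℂ) / N) + π * I + 2 * π * I * hh (ww (divPt N v τ)) := by
    ring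
  rw [e] at h
  refine h.congr_fun fun m => ?_
  rw [phiTerm]
  have hA : ww (divPt N v τ + ((m + 1 : ℕ) : ℂ) * τ) = ww τ ^ (m + 1) * ww (divPt N v τ) := by
    rw [ww_add, ww_nat_mul, mul_comm]
  have hC : ww (divPt N v τ - ((m + 1 : ℕ) : ℂ) * τ) = (ww τ ^ (m + 1) / ww (divPt N v τ))⁻¹ := by
    rw [ww_sub, ww_nat_mul, inv_div]
  have h1 : ww τ ^ (m + 1) * ww (divPt N v τ) ≠ 1 := by
    rw [← hA]
    have := ww_ne_one_of_notMem hz ((m + 1 : ℕ) : ℤ)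
    simpa using this
  have h2 : ww τ ^ (m + 1) / ww (divPt N v τ) ≠ 1 := by
    intro h'
    have h3 := ww_ne_one_of_notMem hz (-((m + 1 : ℕ) : ℤ))
    apply h3
    have : divPt N v τ + ((-((m + 1 : ℕ) : ℤ) : ℤ) : ℂ) * τ =
        divPt N v τ - ((m + 1 : ℕ) : ℂ) * τ := by push_cast; ring
    rw [this, hC, h', inv_one]
  have hC0 : ww τ ^ (m + 1) / ww (divPt N v τ) ≠ 0 :=
    div_ne_zero (pow_ne_zero _ (ww_ne_zero _)) (ww_ne_zero _)
  exact ((add_comm _ _).trans (pi_cot_pair hA hC h1 h2 hC0)).symm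

end Fermat.Agent.S48lib.Eis1
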