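/-
S48lib / Eis1 / ZdivQ (helper5).
Analytic properties of the division values `Zdiv N v` (`v ≢ 0 mod N`) from their exponential form:
holomorphy on `ℍ` and boundedness at `i∞` (hence, by `Zdiv_smul`, at every cusp).
-/
import Mathlib
import Fermat.Agent.S48lib.Eis1.Bridge

set_option autoImplicit false

noncomputable section

namespace Fermat.Agent.S48lib.Eis1

open Complex Real Filter Topology
open UpperHalfPlane hiding I
open scoped Manifold MatrixGroups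

/-! ### elementary bounds -/

lemma norm_hh_le {ρ : ℝ} (hρ : ρ < 1) {y : ℂ} (hy : ‖y‖ ≤ ρ) : ‖hh y‖ ≤ ‖y‖ / (1 - ρ) := by
  have h1 : 0 < 1 - ρ := by linarith
  have h2 : 1 - ρ ≤ ‖1 - y‖ := by
    have := norm_sub_norm_le (1 : ℂ) y
    rw [norm_one] at this
    linarith
  rw [hh, norm_div]
  exact div_le_div_of_nonneg_left (norm_nonneg _) h1 h2

lemma one_sub_ne_zero_of_norm_lt {y : ℂ} (hy : ‖y‖ < 1) : 1 - y ≠ 0 := by
  intro h
  have : y = 1 := by linear_combination -h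
  rw [this, norm_one] at hy
  exact lt_irrefl _ hy

lemma differentiableAt_hh_comp {f : ℂ → ℂ} {t : ℂ} (hf : DifferentiableAt ℂ f t)
    (h1 : 1 - f t ≠ 0) : DifferentiableAt ℂ (fun s => hh (f s)) t := by
  unfold hh
  exact hf.div ((differentiableAt_const _).sub hf) h1

lemma differentiable_ww : Differentiable ℂ ww := by
  unfold ww
  exact (differentiable_id.const_mul _).cexp

/-- `w(t) = e(α t + β)` -/
def wAB (α β : ℝ) (t : ℂ) : ℂ := ww ((α : ℂ) * t + β)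

lemma differentiable_wAB (α β : ℝ) : Differentiable ℂ (wAB α β) := by
  unfold wAB
  exact differentiable_ww.comp ((differentiable_id.const_mul _).add_const _)

lemma wAB_ne_zero (α β : ℝ) (t : ℂ) : wAB α β t ≠ 0 := ww_ne_zero _

lemma norm_wAB (α β : ℝ) (t : ℂ) : ‖wAB α β t‖ = Real.exp (-2 * π * (α * t.im)) := by
  rw [wAB, norm_ww]
  congr 1
  simp

lemma norm_ww_pow (t : ℂ) (m : ℕ) : ‖ww t ^ m‖ = Real.exp (-2 * π * (m * t.im)) := by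
  rw [norm_pow, norm_ww, ← Real.exp_nat_mul]
  congr 1
  ring

section bounds

variable {α β δ : ℝ} (hα0 : 0 ≤ α) (hα1 : α < 1) (hδ : 0 < δ)

/-- the ratio of the geometric majorant -/
def rhoOf (α δ : ℝ) : ℝ := Real.exp (-2 * π * (δ * (1 - α)))

lemma rhoOf_pos (α δ : ℝ) : 0 < rhoOf α δ := Real.exp_pos _

include hα1 hδ in
lemma rhoOf_lt_one : rhoOf α δ < 1 := by
  rw [rhoOf, Real.exp_lt_one_iff]
  have : 0 < δ * (1 - α) := mul_pos hδ (by linarith)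
  have hπ := Real.pi_pos
  nlinarith

include hα0 in
lemma norm_pow_div_le {t : ℂ} (ht : δ ≤ t.im) (hδ' : 0 ≤ δ) (hα1' : α ≤ 1) (m : ℕ) :
    ‖ww t ^ (m + 1) / wAB α β t‖ ≤ rhoOf α δ ^ (m + 1) := by
  rw [norm_div, norm_ww_pow, norm_wAB, ← Real.exp_sub, rhoOf, ← Real.exp_nat_mul,
    Real.exp_le_exp]
  have hπ := Real.pi_pos
  have h1 : (m + 1 : ℝ) * δ * (1 - α) ≤ ((m + 1 : ℝ) - α) * t.im := by
    have ht0 : 0 ≤ t.im := le_trans hδ' ht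
    have hm : (0 : ℝ) ≤ m := Nat.cast_nonneg m
    have h2 : (m + 1 : ℝ) * (1 - α) ≤ (m + 1 : ℝ) - α := by nlinarith
    have h3 : 0 ≤ (m + 1 : ℝ) * (1 - α) := mul_nonneg (by linarith) (by linarith)
    calc (m + 1 : ℝ) * δ * (1 - α) = ((m + 1 : ℝ) * (1 - α)) * δ := by ring
      _ ≤ ((m + 1 : ℝ) * (1 - α)) * t.im := mul_le_mul_of_nonneg_left ht h3
      _ ≤ ((m + 1 : ℝ) - α) * t.im := mul_le_mul_of_nonneg_right h2 ht0
  push_cast
  nlinarith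

include hα0 in
lemma norm_pow_mul_le {t : ℂ} (ht : δ ≤ t.im) (hδ' : 0 ≤ δ) (hα1' : α ≤ 1) (m : ℕ) :
    ‖ww t ^ (m + 1) * wAB α β t‖ ≤ rhoOf α δ ^ (m + 1) := by
  rw [norm_mul, norm_ww_pow, norm_wAB, ← Real.exp_add, rhoOf, ← Real.exp_nat_mul,
    Real.exp_le_exp]
  have hπ := Real.pi_pos
  have h1 : (m + 1 : ℝ) * δ * (1 - α) ≤ ((m + 1 : ℝ) + α) * t.im := by
    have ht0 : 0 ≤ t.im := le_trans hδ' ht
    have hm : (0 : ℝ) ≤ m := Nat.cast_nonneg m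
    have h2 : (m + 1 : ℝ) * (1 - α) ≤ (m + 1 : ℝ) + α := by nlinarith
    have h3 : 0 ≤ (m + 1 : ℝ) * (1 - α) := mul_nonneg (by linarith) (by linarith)
    calc (m + 1 : ℝ) * δ * (1 - α) = ((m + 1 : ℝ) * (1 - α)) * δ := by ring
      _ ≤ ((m + 1 : ℝ) * (1 - α)) * t.im := mul_le_mul_of_nonneg_left ht h3
      _ ≤ ((m + 1 : ℝ) + α) * t.im := mul_le_mul_of_nonneg_right h2 ht0
  push_cast
  nlinarith

include hα0 hα1 hδ in
lemma norm_phiTerm_le {t : ℂ} (ht : δ ≤ t.im) (m : ℕ) :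
    ‖phiTerm (wAB α β t) (ww t) m‖ ≤ 2 / (1 - rhoOf α δ) * rhoOf α δ ^ (m + 1) := by
  have hρ1 := rhoOf_lt_one hα1 hδ
  have hρ0 := rhoOf_pos α δ
  have h1 : 0 < 1 - rhoOf α δ := by linarith
  have hp : rhoOf α δ ^ (m + 1) ≤ rhoOf α δ := by
    calc rhoOf α δ ^ (m + 1) ≤ rhoOf α δ ^ 1 :=
          pow_le_pow_of_le_one hρ0.le hρ1.le (by omega)
      _ = rhoOf α δ := pow_one _
  have hA := norm_pow_div_le (β := β) hα0 ht hδ.le hα1.le m
  have hB := norm_pow_mul_le (β := β) hα0 ht hδ.le hα1.le m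
  have hA' := norm_hh_le hρ1 (hA.trans hp)
  have hB' := norm_hh_le hρ1 (hB.trans hp)
  rw [phiTerm]
  calc ‖hh (ww t ^ (m + 1) / wAB α β t) - hh (ww t ^ (m + 1) * wAB α β t)‖
      ≤ ‖hh (ww t ^ (m + 1) / wAB α β t)‖ + ‖hh (ww t ^ (m + 1) * wAB α β t)‖ := norm_sub_le _ _
    _ ≤ ‖ww t ^ (m + 1) / wAB α β t‖ / (1 - rhoOf α δ) +
        ‖ww t ^ (m + 1) * wAB α β t‖ / (1 - rhoOf α δ) := add_le_add hA' hB'
    _ ≤ rhoOf α δ ^ (m + 1) / (1 - rhoOf α δ) + rhoOf α δ ^ (m + 1) / (1 - rhoOf α δ) :=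
        add_le_add (div_le_div_of_nonneg_right hA h1.le) (div_le_div_of_nonneg_right hB h1.le)
    _ = 2 / (1 - rhoOf α δ) * rhoOf α δ ^ (m + 1) := by ring

include hα1 hδ in
lemma summable_majorant :
    Summable fun m : ℕ => 2 / (1 - rhoOf α δ) * rhoOf α δ ^ (m + 1) := by
  have h := summable_geometric_of_lt_one (rhoOf_pos α δ).le (rhoOf_lt_one hα1 hδ)
  exact ((summable_nat_add_iff 1).mpr h).mul_left _

include hα0 hα1 hδ in
lemma differentiableOn_phiTerm (m : ℕ) :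
    DifferentiableOn ℂ (fun t => phiTerm (wAB α β t) (ww t) m) {t : ℂ | δ < t.im} := by
  intro t ht
  have ht' : δ ≤ t.im := le_of_lt ht
  have hρ1 := rhoOf_lt_one hα1 hδ
  have hρ0 := rhoOf_pos α δ
  have hp : rhoOf α δ ^ (m + 1) < 1 := pow_lt_one₀ hρ0.le hρ1 (by omega)
  have hA := norm_pow_div_le (β := β) hα0 ht' hδ.le hα1.le m
  have hB := norm_pow_mul_le (β := β) hα0 ht' hδ.le hα1.le m
  have hw := (differentiable_wAB α β) t
  have hq : DifferentiableAt ℂ (fun s => ww s ^ (m + 1)) t := (differentiable_ww t).pow _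
  refine DifferentiableAt.differentiableWithinAt ?_
  unfold phiTerm
  refine DifferentiableAt.sub ?_ ?_
  · exact differentiableAt_hh_comp (f := fun s => ww s ^ (m + 1) / wAB α β s)
      (hq.div hw (wAB_ne_zero α β t)) (one_sub_ne_zero_of_norm_lt (lt_of_le_of_lt hA hp))
  · exact differentiableAt_hh_comp (f := fun s => ww s ^ (m + 1) * wAB α β s)
      (hq.mul hw) (one_sub_ne_zero_of_norm_lt (lt_of_le_of_lt hB hp))

end bounds

/-- the `q`-series part -/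
def PhiAB (α β : ℝ) (t : ℂ) : ℂ := ∑' m : ℕ, phiTerm (wAB α β t) (ww t) m

/-- the exponential form of the division values as a function of a complex variable -/
def GAB (α β : ℝ) (t : ℂ) : ℂ :=
  2 * π * I * α - π * I - 2 * π * I * hh (wAB α β t) + 2 * π * I * PhiAB α β t

lemma isOpen_im_gt (δ : ℝ) : IsOpen {t : ℂ | δ < t.im} :=
  isOpen_lt continuous_const Complex.continuous_im

lemma differentiableOn_PhiAB {α β : ℝ} (hα0 : 0 ≤ α) (hα1 : α < 1) :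
    DifferentiableOn ℂ (PhiAB α β) {t : ℂ | 0 < t.im} := by
  intro t ht
  have hδ : 0 < t.im / 2 := by
    have : 0 < t.im := ht
    linarith
  have h := differentiableOn_tsum_of_summable_norm (summable_majorant hα1 hδ)
    (fun m => differentiableOn_phiTerm (β := β) hα0 hα1 hδ m) (isOpen_im_gt _)
    (fun m s hs => norm_phiTerm_le (β := β) hα0 hα1 hδ (le_of_lt hs) m)
  have hmem : t ∈ {t : ℂ | t.im / 2 < t.im} := by
    show t.im / 2 < t.im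
    have : 0 < t.im := ht
    linarith
  exact ((h t hmem).differentiableAt ((isOpen_im_gt _).mem_nhds hmem)).differentiableWithinAt

lemma norm_PhiAB_le {α β δ : ℝ} (hα0 : 0 ≤ α) (hα1 : α < 1) (hδ : 0 < δ) {t : ℂ} (ht : δ ≤ t.im) :
    ‖PhiAB α β t‖ ≤ ∑' m : ℕ, 2 / (1 - rhoOf α δ) * rhoOf α δ ^ (m + 1) := by
  refine tsum_of_norm_bounded (summable_majorant hα1 hδ).hasSum fun m => ?_
  exact norm_phiTerm_le hα0 hα1 hδ ht m

/-- the hypothesis under which `w ≠ 1` on all of `ℍ` -/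
def GoodAB (α β : ℝ) : Prop := 0 < α ∨ ww β ≠ 1

lemma wAB_ne_one {α β : ℝ} (hα0 : 0 ≤ α) (h : GoodAB α β) {t : ℂ} (ht : 0 < t.im) :
    wAB α β t ≠ 1 := by
  rcases hα0.lt_or_eq with hα | hα
  · intro h1
    have h2 := norm_wAB α β t
    rw [h1, norm_one] at h2
    have : Real.exp (-2 * π * (α * t.im)) < 1 := by
      rw [Real.exp_lt_one_iff]
      have := mul_pos hα ht
      have hπ := Real.pi_pos
      nlinarith
    linarith
  · rcases h with h | h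
    · exact absurd hα.symm (ne_of_gt h)
    · rw [wAB, ← hα]
      simpa using h

lemma differentiableOn_GAB {α β : ℝ} (hα0 : 0 ≤ α) (hα1 : α < 1) (h : GoodAB α β) :
    DifferentiableOn ℂ (GAB α β) {t : ℂ | 0 < t.im} := by
  unfold GAB
  refine DifferentiableOn.add (DifferentiableOn.sub (differentiableOn_const _) ?_)
    ((differentiableOn_PhiAB hα0 hα1).const_mul _)
  refine DifferentiableOn.const_mul ?_ _
  intro t ht
  refine (differentiableAt_hh_comp (differentiable_wAB α β t) ?_).differentiableWithinAt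
  exact sub_ne_zero.mpr (Ne.symm (wAB_ne_one hα0 h ht))

lemma exists_bound_GAB {α β : ℝ} (hα0 : 0 ≤ α) (hα1 : α < 1) :
    ∃ M : ℝ, ∀ t : ℂ, 1 ≤ t.im → ‖GAB α β t‖ ≤ M := by
  -- bound of the term `hh w`
  have h1 : ∃ M1 : ℝ, ∀ t : ℂ, 1 ≤ t.im → ‖hh (wAB α β t)‖ ≤ M1 := by
    rcases hα0.lt_or_eq with hα | hα
    · set ρ' := Real.exp (-2 * π * α) with hρ'
      have hρ1 : ρ' < 1 := by
        rw [hρ', Real.exp_lt_one_iff]
        have hπ := Real.pi_pos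
        nlinarith
      refine ⟨ρ' / (1 - ρ'), fun t ht => ?_⟩
      have hw : ‖wAB α β t‖ ≤ ρ' := by
        rw [norm_wAB, hρ', Real.exp_le_exp]
        have hπ := Real.pi_pos
        have : α ≤ α * t.im := by nlinarith
        nlinarith
      refine (norm_hh_le hρ1 hw).trans ?_
      exact div_le_div_of_nonneg_right hw (by linarith)
    · refine ⟨‖hh (ww β)‖, fun t _ => ?_⟩
      rw [wAB, ← hα]
      simp
  obtain ⟨M1, hM1⟩ := h1
  refine ⟨‖(2 * π * I * α - π * I : ℂ)‖ + ‖(2 * π * I : ℂ)‖ * M1 + ‖(2 * π * I : ℂ)‖ *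
    ∑' m : ℕ, 2 / (1 - rhoOf α 1) * rhoOf α 1 ^ (m + 1), fun t ht => ?_⟩
  have h2 := norm_PhiAB_le (β := β) hα0 hα1 one_pos ht
  unfold GAB
  calc ‖2 * π * I * α - π * I - 2 * π * I * hh (wAB α β t) + 2 * π * I * PhiAB α β t‖
      ≤ ‖2 * π * I * α - π * I - 2 * π * I * hh (wAB α β t)‖ + ‖2 * π * I * PhiAB α β t‖ :=
        norm_add_le _ _
    _ ≤ (‖(2 * π * I * α - π * I : ℂ)‖ + ‖2 * π * I * hh (wAB α β t)‖) +
        ‖2 * π * I * PhiAB α β t‖ := by gcongr; exact norm_sub_le _ _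
    _ ≤ _ := by
        rw [norm_mul (2 * π * I) (hh _), norm_mul (2 * π * I) (PhiAB α β t)]
        gcongr
        exact hM1 t ht

/-! ### the division values -/

lemma divPt_eq (N : ℕ) (v : Fin 2 → ℤ) (τ : ℍ) :
    divPt N v τ = (((v 0 : ℝ) / (N : ℝ) : ℝ) : ℂ) * τ + (((v 1 : ℝ) / (N : ℝ) : ℝ) : ℂ) := by
  rw [divPt]
  push_cast
  ring

theorem Zdiv_eq_GAB {N : ℕ} (hN : N ≠ 0) (v : Fin 2 → ℤ) (τ : ℍ)
    (hv : ¬ ((N : ℤ) ∣ v 0 ∧ (N : ℤ) ∣ v 1)) :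
    Zdiv N v τ = GAB ((v 0 : ℝ) / N) ((v 1 : ℝ) / N) τ := by
  have h := (hasSum_Zdiv_phi hN v τ hv).tsum_eq
  rw [tsum_mul_left] at h
  rw [GAB, PhiAB, wAB, ← divPt_eq, h]
  push_cast
  ring

lemma goodAB_of_not_dvd {N : ℕ} (hN : N ≠ 0) (v : Fin 2 → ℤ) (h0 : 0 ≤ v 0)
    (hv : ¬ ((N : ℤ) ∣ v 0 ∧ (N : ℤ) ∣ v 1)) : GoodAB ((v 0 : ℝ) / N) ((v 1 : ℝ) / N) := by
  have hN' : (0 : ℝ) < N := Nat.cast_pos.mpr (Nat.pos_of_ne_zero hN)
  rcases h0.lt_or_eq with h | h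
  · left
    exact div_pos (by exact_mod_cast h) hN'
  · right
    intro h1
    obtain ⟨n, hn⟩ := (ww_eq_one_iff _).mp h1
    apply hv
    refine ⟨by rw [← h]; exact dvd_zero _, ⟨n, ?_⟩⟩
    have hNC : (N : ℂ) ≠ 0 := Nat.cast_ne_zero.mpr hN
    have : ((v 1 : ℤ) : ℂ) = ((N * n : ℤ) : ℂ) := by
      push_cast at hn ⊢
      rw [hn]
      field_simp
    exact_mod_cast this

lemma not_dvd_emod {N : ℕ} (v : Fin 2 → ℤ)
    (hv : ¬ ((N : ℤ) ∣ v 0 ∧ (N : ℤ) ∣ v 1)) :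
    ¬ ((N : ℤ) ∣ (![v 0 % N, v 1] : Fin 2 → ℤ) 0 ∧ (N : ℤ) ∣ (![v 0 % N, v 1] : Fin 2 → ℤ) 1) := by
  simp only [Matrix.cons_val_zero, Matrix.cons_val_one]
  rintro ⟨h1, h2⟩
  exact hv ⟨(Int.dvd_iff_emod_eq_zero).mpr (by
    have := (Int.dvd_iff_emod_eq_zero).mp h1
    rwa [Int.emod_emod_of_dvd _ (dvd_refl _)] at this), h2⟩

/-- reduction of `v₀` to `[0, N)` -/
lemma Zdiv_emod {N : ℕ} (hN : N ≠ 0) (v : Fin 2 → ℤ) (τ : ℍ)
    (hv : ¬ ((N : ℤ) ∣ v 0 ∧ (N : ℤ) ∣ v 1)) :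
    Zdiv N v τ = Zdiv N ![v 0 % N, v 1] τ := by
  have hv' := not_dvd_emod v hv
  have e : v = ![v 0 % N, v 1] + (N : ℤ) • ![v 0 / N, 0] := by
    funext i
    fin_cases i
    · simp only [Fin.zero_eta, Pi.add_apply, Matrix.cons_val_zero, Pi.smul_apply, smul_eq_mul]
      exact (Int.emod_add_mul_ediv (v 0) N).symm
    · simp
  conv_lhs => rw [e]
  exact Zdiv_add_mul hN _ _ τ hv'

/-- `Zdiv N v` as a `GAB` with `0 ≤ α < 1` -/
lemma Zdiv_eq_GAB_emod {N : ℕ} (hN : N ≠ 0) (v : Fin 2 → ℤ)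
    (hv : ¬ ((N : ℤ) ∣ v 0 ∧ (N : ℤ) ∣ v 1)) :
    ∃ α β : ℝ, 0 ≤ α ∧ α < 1 ∧ GoodAB α β ∧ ∀ τ : ℍ, Zdiv N v τ = GAB α β τ := by
  have hN' : (0 : ℝ) < N := Nat.cast_pos.mpr (Nat.pos_of_ne_zero hN)
  have hNZ : (0 : ℤ) < N := by exact_mod_cast Nat.pos_of_ne_zero hN
  have hv' := not_dvd_emod v hv
  have h0 : 0 ≤ (![v 0 % N, v 1] : Fin 2 → ℤ) 0 := Int.emod_nonneg _ hNZ.ne'
  have h1 : (![v 0 % N, v 1] : Fin 2 → ℤ) 0 < N := Int.emod_lt_of_pos _ hNZ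
  refine ⟨(((![v 0 % N, v 1] : Fin 2 → ℤ) 0 : ℤ) : ℝ) / N,
    (((![v 0 % N, v 1] : Fin 2 → ℤ) 1 : ℤ) : ℝ) / N, ?_, ?_, ?_, ?_⟩
  · exact div_nonneg (by exact_mod_cast h0) hN'.le
  · rw [div_lt_one hN']
    exact_mod_cast h1
  · exact goodAB_of_not_dvd hN _ h0 hv'
  · intro τ
    rw [Zdiv_emod hN v τ hv, Zdiv_eq_GAB hN _ τ hv']

theorem mdifferentiable_Zdiv {N : ℕ} (hN : N ≠ 0) (v : Fin 2 → ℤ)
    (hv : ¬ ((N : ℤ) ∣ v 0 ∧ (N : ℤ) ∣ v 1)) : MDifferentiable 𝓘(ℂ) 𝓘(ℂ) (Zdiv N v) := by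
  obtain ⟨α, β, hα0, hα1, hg, h⟩ := Zdiv_eq_GAB_emod hN v hv
  rw [UpperHalfPlane.mdifferentiable_iff]
  refine (differentiableOn_GAB hα0 hα1 hg).congr fun t ht => ?_
  have ht' : 0 < t.im := ht
  rw [Function.comp_apply, h, ofComplex_apply_of_im_pos ht']

theorem isBoundedAtImInfty_Zdiv {N : ℕ} (hN : N ≠ 0) (v : Fin 2 → ℤ)
    (hv : ¬ ((N : ℤ) ∣ v 0 ∧ (N : ℤ) ∣ v 1)) : IsBoundedAtImInfty (Zdiv N v) := by
  obtain ⟨α, β, hα0, hα1, -, h⟩ := Zdiv_eq_GAB_emod hN v hv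
  obtain ⟨M, hM⟩ := exists_bound_GAB (β := β) hα0 hα1
  rw [UpperHalfPlane.isBoundedAtImInfty_iff]
  refine ⟨M, 1, fun z hz => ?_⟩
  rw [h]
  exact hM z hz

end Fermat.Agent.S48lib.Eis1
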