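/-
S48lib / Eis1 / EisChar (helper5).
Linear combinations `∑_{u ∈ (ℤ/N)²} c(u) Z_u` of the division values of `Z = ζ - η_ℝ`: weight-one
slash action of `SL(2, ℤ)`, holomorphy, boundedness at `i∞`; the Eisenstein series
`𝔈_χ = ∑_u χ(u₀) Z_u` attached to a Dirichlet character `χ` mod `N` with `χ(0) = 0`, its nebentypus
and the resulting `ModularForm (Gamma1 N) 1`.
-/
import Mathlib
import Fermat.Agent.S48lib.Eis1.ZdivQ

set_option autoImplicit false

noncomputable section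

namespace Fermat.Agent.S48lib.Eis1

open Complex Real Filter Topology CongruenceSubgroup ModularForm
open UpperHalfPlane hiding I
open scoped Manifold MatrixGroups ModularForm

variable {N : ℕ} [NeZero N]

omit [NeZero N] in
/-- divisibility of a vector by `N` in terms of its reduction mod `N` -/
lemma dvd_iff_cast_eq_zero (v : Fin 2 → ℤ) :
    ((N : ℤ) ∣ v 0 ∧ (N : ℤ) ∣ v 1) ↔ (fun i => ((v i : ℤ) : ZMod N)) = 0 := by
  rw [← ZMod.intCast_zmod_eq_zero_iff_dvd, ← ZMod.intCast_zmod_eq_zero_iff_dvd]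
  constructor
  · rintro ⟨h0, h1⟩
    funext i
    fin_cases i
    · exact h0
    · exact h1
  · intro h
    exact ⟨congrFun h 0, congrFun h 1⟩

/-- `Zdiv N v` only depends on `v mod N` -/
lemma Zdiv_congr (v v' : Fin 2 → ℤ) (h : ∀ i, ((v i : ℤ) : ZMod N) = ((v' i : ℤ) : ZMod N))
    (hv : ¬ ((N : ℤ) ∣ v 0 ∧ (N : ℤ) ∣ v 1)) (τ : ℍ) : Zdiv N v τ = Zdiv N v' τ := by
  have h' : ∀ i, ∃ w : ℤ, v' i - v i = N * w := fun i =>
    (ZMod.intCast_eq_intCast_iff_dvd_sub (v i) (v' i) N).mp (h i)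
  choose w hw using h'
  have e : v' = v + (N : ℤ) • w := by
    funext i
    simp only [Pi.add_apply, Pi.smul_apply, smul_eq_mul]
    linarith [hw i]
  rw [e, Zdiv_add_mul (NeZero.ne N) v w τ hv]

/-- the standard representative in `ℤ²` of a vector mod `N` -/
def repVec (u : Fin 2 → ZMod N) : Fin 2 → ℤ := fun i => ((u i).val : ℤ)

/-- the division values indexed by `(ℤ/N)²` -/
def ZdivM (N : ℕ) [NeZero N] (u : Fin 2 → ZMod N) (τ : ℍ) : ℂ := Zdiv N (repVec u) τ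

lemma cast_repVec (u : Fin 2 → ZMod N) : (fun i => ((repVec u i : ℤ) : ZMod N)) = u := by
  funext i
  simp [repVec]

lemma not_dvd_repVec {u : Fin 2 → ZMod N} (hu : u ≠ 0) :
    ¬ ((N : ℤ) ∣ repVec u 0 ∧ (N : ℤ) ∣ repVec u 1) := by
  rw [dvd_iff_cast_eq_zero, cast_repVec]
  exact hu

lemma ZdivM_mk (v : Fin 2 → ℤ) (hv : ¬ ((N : ℤ) ∣ v 0 ∧ (N : ℤ) ∣ v 1)) (τ : ℍ) :
    ZdivM N (fun i => ((v i : ℤ) : ZMod N)) τ = Zdiv N v τ := by
  rw [ZdivM]
  symm
  refine Zdiv_congr v _ (fun i => ?_) hv τ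
  exact (congrFun (cast_repVec (fun i => ((v i : ℤ) : ZMod N))) i).symm

/-- reduction of `SL(2, ℤ)` mod `N` -/
abbrev redSL (N : ℕ) (γ : SL(2, ℤ)) : SL(2, ZMod N) :=
  Matrix.SpecialLinearGroup.map (Int.castRingHom (ZMod N)) γ

/-- right multiplication by an element of `SL(2, ℤ/N)` on row vectors -/
def vecMulEquiv (g : SL(2, ZMod N)) : (Fin 2 → ZMod N) ≃ (Fin 2 → ZMod N) where
  toFun u := Matrix.vecMul u (g : Matrix (Fin 2) (Fin 2) (ZMod N))
  invFun u := Matrix.vecMul u ((g⁻¹ : SL(2, ZMod N)) : Matrix (Fin 2) (Fin 2) (ZMod N))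
  left_inv u := by
    simp only [Matrix.vecMul_vecMul, ← Matrix.SpecialLinearGroup.coe_mul, mul_inv_cancel,
      Matrix.SpecialLinearGroup.coe_one, Matrix.vecMul_one]
  right_inv u := by
    simp only [Matrix.vecMul_vecMul, ← Matrix.SpecialLinearGroup.coe_mul, inv_mul_cancel,
      Matrix.SpecialLinearGroup.coe_one, Matrix.vecMul_one]

omit [NeZero N] in
lemma vecMulEquiv_apply (g : SL(2, ZMod N)) (u : Fin 2 → ZMod N) :
    vecMulEquiv g u = Matrix.vecMul u (g : Matrix (Fin 2) (Fin 2) (ZMod N)) := rfl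

omit [NeZero N] in
lemma vecMulEquiv_symm_apply (g : SL(2, ZMod N)) (u : Fin 2 → ZMod N) :
    (vecMulEquiv g).symm u =
      Matrix.vecMul u ((g⁻¹ : SL(2, ZMod N)) : Matrix (Fin 2) (Fin 2) (ZMod N)) := rfl

omit [NeZero N] in
lemma vecMulEquiv_symm_zero (g : SL(2, ZMod N)) : (vecMulEquiv g).symm 0 = 0 := by
  rw [vecMulEquiv_symm_apply]
  exact Matrix.zero_vecMul _

omit [NeZero N] in
lemma vecMulEquiv_ne_zero (g : SL(2, ZMod N)) {u : Fin 2 → ZMod N} (hu : u ≠ 0) :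
    vecMulEquiv g u ≠ 0 := by
  intro h
  apply hu
  have : (vecMulEquiv g).symm (vecMulEquiv g u) = (vecMulEquiv g).symm 0 := by rw [h]
  rw [Equiv.symm_apply_apply, vecMulEquiv_symm_zero] at this
  exact this

omit [NeZero N] in
lemma cast_vecMul (v : Fin 2 → ℤ) (γ : SL(2, ℤ)) :
    (fun i => (((Matrix.vecMul v (γ : Matrix (Fin 2) (Fin 2) ℤ)) i : ℤ) : ZMod N)) =
      vecMulEquiv (redSL N γ) (fun i => ((v i : ℤ) : ZMod N)) := by
  funext i
  exact RingHom.map_vecMul (Int.castRingHom (ZMod N)) (γ : Matrix (Fin 2) (Fin 2) ℤ) v i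

/-- the weight-one law on `(ℤ/N)²` -/
lemma ZdivM_smul {u : Fin 2 → ZMod N} (hu : u ≠ 0) (γ : SL(2, ℤ)) (τ : ℍ) :
    ZdivM N u (γ • τ) = denom γ τ * ZdivM N (vecMulEquiv (redSL N γ) u) τ := by
  rw [ZdivM, Zdiv_smul]
  congr 1
  have e := cast_vecMul (N := N) (repVec u) γ
  rw [cast_repVec] at e
  have hv : ¬ ((N : ℤ) ∣ (Matrix.vecMul (repVec u) (γ : Matrix (Fin 2) (Fin 2) ℤ)) 0 ∧
      (N : ℤ) ∣ (Matrix.vecMul (repVec u) (γ : Matrix (Fin 2) (Fin 2) ℤ)) 1) := by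
    rw [dvd_iff_cast_eq_zero, e]
    exact vecMulEquiv_ne_zero _ hu
  rw [← ZdivM_mk _ hv, e]

/-! ### linear combinations -/

/-- `∑_u c(u) Z_u` -/
def combo (c : (Fin 2 → ZMod N) → ℂ) (τ : ℍ) : ℂ := ∑ u : Fin 2 → ZMod N, c u * ZdivM N u τ

lemma combo_slash (c : (Fin 2 → ZMod N) → ℂ) (hc : c 0 = 0) (γ : SL(2, ℤ)) :
    combo c ∣[(1 : ℤ)] γ = combo (fun u => c ((vecMulEquiv (redSL N γ)).symm u)) := by
  funext τ
  rw [SL_slash_apply, combo, combo, Finset.sum_mul]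
  have h := Equiv.sum_comp (vecMulEquiv (redSL N γ))
    (fun u => c ((vecMulEquiv (redSL N γ)).symm u) * ZdivM N u τ)
  rw [← h]
  refine Finset.sum_congr rfl fun u _ => ?_
  rw [Equiv.symm_apply_apply]
  by_cases hu : u = 0
  · rw [hu, hc, zero_mul, zero_mul, zero_mul]
  · rw [ZdivM_smul hu]
    have hd : denom γ τ ≠ 0 := UpperHalfPlane.denom_ne_zero _ τ
    rw [zpow_neg, zpow_one]
    field_simp

lemma mdifferentiable_combo (c : (Fin 2 → ZMod N) → ℂ) (hc : c 0 = 0) :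
    MDifferentiable 𝓘(ℂ) 𝓘(ℂ) (combo c) := by
  rw [UpperHalfPlane.mdifferentiable_iff]
  have e : combo c ∘ ofComplex = fun t => ∑ u : Fin 2 → ZMod N, c u * (ZdivM N u ∘ ofComplex) t := by
    funext t
    simp [combo]
  rw [e]
  refine DifferentiableOn.fun_sum fun u _ => ?_
  by_cases hu : u = 0
  · rw [hu, hc]
    simp only [zero_mul]
    exact differentiableOn_const _
  · refine DifferentiableOn.const_mul ?_ _
    exact UpperHalfPlane.mdifferentiable_iff.mp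
      (mdifferentiable_Zdiv (NeZero.ne N) (repVec u) (not_dvd_repVec hu))

lemma isBoundedAtImInfty_combo (c : (Fin 2 → ZMod N) → ℂ) (hc : c 0 = 0) :
    IsBoundedAtImInfty (combo c) := by
  have e : combo c = ∑ u : Fin 2 → ZMod N, (fun τ => c u * ZdivM N u τ) := by
    funext τ
    simp [combo]
  rw [e]
  refine Finset.sum_induction _ (fun f : ℍ → ℂ => IsBoundedAtImInfty f) ?_ ?_ ?_
  · intro f g hf hg
    exact hf.add hg
  · exact zero_form_isBoundedAtImInfty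
  · intro u _
    by_cases hu : u = 0
    · rw [hu, hc]
      simp only [zero_mul]
      exact zero_form_isBoundedAtImInfty
    · have := isBoundedAtImInfty_Zdiv (NeZero.ne N) (repVec u) (not_dvd_repVec hu)
      exact this.const_mul_left (c u)

/-! ### the Eisenstein series of a character -/

variable (χ : DirichletCharacter ℂ N)

/-- `𝔈_χ = ∑_{u ∈ (ℤ/N)²} χ(u₀) Z_u` -/
def eisFun : ℍ → ℂ := combo (fun u => χ (u 0))

lemma eisFun_apply (τ : ℍ) : eisFun χ τ = ∑ u : Fin 2 → ZMod N, χ (u 0) * ZdivM N u τ := rfl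

/-- nebentypus -/
theorem eisFun_slash (hχ0 : χ 0 = 0) (γ : SL(2, ℤ)) (hγ : γ ∈ Gamma0 N) :
    eisFun χ ∣[(1 : ℤ)] γ = χ ((γ 1 1 : ℤ) : ZMod N) • eisFun χ := by
  rw [eisFun, combo_slash _ (by simpa using hχ0)]
  have hc : ((γ 1 0 : ℤ) : ZMod N) = 0 := Gamma0_mem.mp hγ
  funext τ
  rw [Pi.smul_apply, smul_eq_mul, combo, combo, Finset.mul_sum]
  refine Finset.sum_congr rfl fun u _ => ?_
  rw [← mul_assoc]
  congr 1
  -- `(u γ̄⁻¹)₀ = u₀ d - u₁ c = u₀ d`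
  have e : ((vecMulEquiv (redSL N γ)).symm u) 0 = u 0 * ((γ 1 1 : ℤ) : ZMod N) := by
    show Matrix.vecMul u (((redSL N γ)⁻¹ : SL(2, ZMod N)) : Matrix (Fin 2) (Fin 2) (ZMod N)) 0 = _
    rw [Matrix.SpecialLinearGroup.SL2_inv_expl]
    simp only [Matrix.vecMul, dotProduct, Fin.sum_univ_two, Matrix.cons_val',
      Matrix.cons_val_zero, Matrix.cons_val_one, Matrix.cons_val_fin_one]
    simp only [redSL, Matrix.SpecialLinearGroup.map_apply_coe, RingHom.mapMatrix_apply,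
      Int.coe_castRingHom, Matrix.map_apply, hc]
    ring
  rw [e, map_mul, mul_comm]

theorem mdifferentiable_eisFun (hχ0 : χ 0 = 0) : MDifferentiable 𝓘(ℂ) 𝓘(ℂ) (eisFun χ) :=
  mdifferentiable_combo _ (by simpa using hχ0)

theorem isBoundedAtImInfty_eisFun_slash (hχ0 : χ 0 = 0) (γ : SL(2, ℤ)) :
    IsBoundedAtImInfty (eisFun χ ∣[(1 : ℤ)] γ) := by
  rw [eisFun, combo_slash _ (by simpa using hχ0)]
  refine isBoundedAtImInfty_combo _ ?_
  rw [vecMulEquiv_symm_zero]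
  simpa using hχ0

/-- the Eisenstein series as a modular form of weight one on `Γ₁(N)` (not normalised) -/
def eisMF (hχ0 : χ 0 = 0) :
    ModularForm ((Gamma1 N : Subgroup SL(2, ℤ)) : Subgroup (GL (Fin 2) ℝ)) 1 where
  toFun := eisFun χ
  slash_action_eq' := by
    rintro _ ⟨γ, hγ, rfl⟩
    show eisFun χ ∣[(1 : ℤ)] γ = eisFun χ
    have h0 : γ ∈ Gamma0 N := Gamma1_in_Gamma0 N hγ
    rw [eisFun_slash χ hχ0 γ h0]
    have h1 : ((γ 1 1 : ℤ) : ZMod N) = 1 := ((Gamma1_mem N γ).mp hγ).2.1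
    rw [h1, map_one, one_smul]
  holo' := mdifferentiable_eisFun χ hχ0
  bdd_at_cusps' {c} hc := by
    rw [Subgroup.IsArithmetic.isCusp_iff_isCusp_SL2Z] at hc
    rw [OnePoint.isBoundedAt_iff_forall_SL2Z hc]
    intro γ _
    exact isBoundedAtImInfty_eisFun_slash χ hχ0 γ

lemma eisMF_apply (hχ0 : χ 0 = 0) (τ : ℍ) : eisMF χ hχ0 τ = eisFun χ τ := rfl

end Fermat.Agent.S48lib.Eis1
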