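/-
S48lib / Eis1 / Filter (helper5).
The roots-of-unity filter: for a primitive `N`-th root of unity `ζ` and `‖y‖ < 1`,
`∑_{r < N} h(y ζ^r) = N h(y^N)`, `h(y) = y/(1 - y)`.
-/
import Mathlib
import Fermat.Agent.S48lib.Eis1.ZdivQ

set_option autoImplicit false

noncomputable section

namespace Fermat.Agent.S48lib.Eis1

open Complex Real Filter Topology Finset

lemma hh_eq {y : ℂ} (hy : 1 - y ≠ 0) : hh y = (1 - y)⁻¹ - 1 := by
  rw [hh]
  field_simp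
  ring

lemma hasSum_hh {y : ℂ} (hy : ‖y‖ < 1) : HasSum (fun k : ℕ => y ^ (k + 1)) (hh y) := by
  have h := (hasSum_geometric_of_norm_lt_one hy).mul_left y
  rw [hh, div_eq_mul_inv]
  refine h.congr_fun fun k => ?_
  rw [pow_succ']

lemma norm_lt_one_of_pow {y : ℂ} {n : ℕ} (h : ‖y ^ n‖ < 1) : ‖y‖ < 1 := by
  by_contra h1
  push Not at h1
  rw [norm_pow] at h
  have := one_le_pow₀ (n := n) h1
  linarith

lemma sum_pow_primitiveRoot {ζ : ℂ} {N : ℕ} (hζ : IsPrimitiveRoot ζ N) (k : ℕ) :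
    ∑ r ∈ range N, (ζ ^ r) ^ k = if N ∣ k then (N : ℂ) else 0 := by
  have e : ∀ r, (ζ ^ r) ^ k = (ζ ^ k) ^ r := fun r => by rw [← pow_mul, ← pow_mul, mul_comm]
  simp_rw [e]
  split_ifs with h
  · rw [(hζ.pow_eq_one_iff_dvd k).mpr h]
    simp
  · have h1 : ζ ^ k ≠ 1 := fun h' => h ((hζ.pow_eq_one_iff_dvd k).mp h')
    rw [geom_sum_eq h1, ← pow_mul, mul_comm, pow_mul, hζ.pow_eq_one, one_pow, sub_self, zero_div]

lemma sum_inv_filter {ζ : ℂ} {N : ℕ} (hN : N ≠ 0) (hζ : IsPrimitiveRoot ζ N) {y : ℂ}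
    (hy : ‖y‖ < 1) : ∑ r ∈ range N, (1 - y * ζ ^ r)⁻¹ = N * (1 - y ^ N)⁻¹ := by
  have hζn : ‖ζ‖ = 1 := hζ.norm'_eq_one hN
  have h1 : ∀ r ∈ range N, HasSum (fun k : ℕ => (y * ζ ^ r) ^ k) (1 - y * ζ ^ r)⁻¹ := fun r _ => by
    apply hasSum_geometric_of_norm_lt_one
    rw [norm_mul, norm_pow, hζn, one_pow, mul_one]
    exact hy
  have h2 := hasSum_sum h1
  have h3 : (fun k : ℕ => ∑ r ∈ range N, (y * ζ ^ r) ^ k) =
      fun k => y ^ k * (if N ∣ k then (N : ℂ) else 0) := by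
    funext k
    simp_rw [mul_pow]
    rw [← Finset.mul_sum, sum_pow_primitiveRoot hζ]
  rw [h3] at h2
  have hyN : ‖y ^ N‖ < 1 := by
    rw [norm_pow]
    exact pow_lt_one₀ (norm_nonneg _) hy hN
  have h4 := (hasSum_geometric_of_norm_lt_one hyN).mul_left (N : ℂ)
  have hi : Function.Injective (fun j : ℕ => N * j) := fun a b h =>
    Nat.eq_of_mul_eq_mul_left (Nat.pos_of_ne_zero hN) h
  have h5 : HasSum (fun k : ℕ => y ^ k * (if N ∣ k then (N : ℂ) else 0)) (N * (1 - y ^ N)⁻¹) := by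
    rw [← hi.hasSum_iff]
    · refine h4.congr_fun fun j => ?_
      simp only [Function.comp_apply]
      rw [if_pos (dvd_mul_right N j), pow_mul]
      ring
    · intro k hk
      rw [if_neg, mul_zero]
      rintro ⟨j, rfl⟩
      exact hk ⟨j, rfl⟩
  exact h2.unique h5

/-- **the roots-of-unity filter** -/
lemma sum_hh_filter {ζ : ℂ} {N : ℕ} (hN : N ≠ 0) (hζ : IsPrimitiveRoot ζ N) {y : ℂ}
    (hy : ‖y‖ < 1) : ∑ r ∈ range N, hh (y * ζ ^ r) = N * hh (y ^ N) := by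
  have hζn : ‖ζ‖ = 1 := hζ.norm'_eq_one hN
  have hyN : ‖y ^ N‖ < 1 := by
    rw [norm_pow]
    exact pow_lt_one₀ (norm_nonneg _) hy hN
  have h1 : ∀ r ∈ range N, hh (y * ζ ^ r) = (1 - y * ζ ^ r)⁻¹ - 1 := fun r _ => by
    apply hh_eq
    apply one_sub_ne_zero_of_norm_lt
    rw [norm_mul, norm_pow, hζn, one_pow, mul_one]
    exact hy
  rw [sum_congr rfl h1, sum_sub_distrib, sum_inv_filter hN hζ hy,
    hh_eq (one_sub_ne_zero_of_norm_lt hyN)]
  simp only [sum_const, card_range, nsmul_eq_mul, mul_one]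
  ring

end Fermat.Agent.S48lib.Eis1
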