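/-
S48lib / Eis1 / EisQ (helper5).
The `q`-expansion of `𝔈_χ = ∑_u χ(u₀) Z_u` for an odd Dirichlet character `χ` mod `N`:
`𝔈_χ = 2πi ( ∑_j χ(j) j - 2N ∑_{n ≥ 1} (∑_{d ∣ n} χ(d)) qⁿ )`.
-/
import Mathlib
import Fermat.Agent.S48lib.Eis1.EisChar
import Fermat.Agent.S48lib.Eis1.Filter
import Fermat.Agent.S48lib.X1.Wp.Lambert

set_option autoImplicit false

noncomputable section

namespace Fermat.Agent.S48lib.Eis1

open Complex Real Filter Topology Finset
open UpperHalfPlane hiding I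

variable {N : ℕ} [NeZero N]

/-- `ζ_N = e(1/N)` -/
def zetaN (N : ℕ) : ℂ := ww (1 / (N : ℂ))

omit [NeZero N] in
lemma isPrimitiveRoot_zetaN (hN : N ≠ 0) : IsPrimitiveRoot (zetaN N) N := by
  have h := Complex.isPrimitiveRoot_exp N hN
  have e : zetaN N = cexp (2 * π * I / N) := by
    rw [zetaN, ww]
    congr 1
    ring
  rw [e]
  exact h

omit [NeZero N] in
lemma ww_divPt (a r : ℕ) (τ : ℍ) :
    ww (divPt N ![(a : ℤ), (r : ℤ)] τ) = ww ((a : ℂ) * τ / N) * zetaN N ^ r := by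
  rw [zetaN, ← ww_nat_mul, ← ww_add]
  congr 1
  simp only [divPt, Matrix.cons_val_zero, Matrix.cons_val_one, Int.cast_natCast]
  ring

lemma ww_div_pow (a : ℕ) (τ : ℍ) : ww ((a : ℂ) * τ / N) ^ N = ww τ ^ a := by
  have hN : (N : ℂ) ≠ 0 := Nat.cast_ne_zero.mpr (NeZero.ne N)
  rw [← ww_nat_mul, ← ww_nat_mul]
  congr 1
  field_simp

lemma norm_ww_tau_lt_one (τ : ℍ) : ‖ww (τ : ℂ)‖ < 1 := by
  rw [norm_ww, Real.exp_lt_one_iff]
  have := τ.im_pos
  have hπ := Real.pi_pos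
  have : 0 < π * (τ : ℂ).im := mul_pos hπ this
  linarith

lemma norm_pow_lt_one {q : ℂ} (hq : ‖q‖ < 1) {n : ℕ} (hn : n ≠ 0) : ‖q ^ n‖ < 1 := by
  rw [norm_pow]
  exact pow_lt_one₀ (norm_nonneg _) hq hn

/-- `g(n) = qⁿ/(1 - qⁿ)` -/
def gL (q : ℂ) (n : ℕ) : ℂ := hh (q ^ n)

lemma norm_gL_le {q : ℂ} (hq : ‖q‖ < 1) (n : ℕ) : ‖gL q (n + 1)‖ ≤ ‖q‖ ^ (n + 1) / (1 - ‖q‖) := by
  have h1 : ‖q ^ (n + 1)‖ ≤ ‖q‖ := by
    rw [norm_pow]
    calc ‖q‖ ^ (n + 1) ≤ ‖q‖ ^ 1 := pow_le_pow_of_le_one (norm_nonneg _) hq.le (by omega)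
      _ = ‖q‖ := pow_one _
  have := norm_hh_le hq h1
  rwa [norm_pow] at this

lemma summable_gL {q : ℂ} (hq : ‖q‖ < 1) : Summable (gL q) := by
  rw [← summable_nat_add_iff 1]
  refine Summable.of_norm_bounded (g := fun n : ℕ => ‖q‖ ^ (n + 1) / (1 - ‖q‖)) ?_ (norm_gL_le hq)
  have h := summable_geometric_of_lt_one (norm_nonneg q) hq
  exact ((summable_nat_add_iff 1).mpr h).div_const _

lemma summable_gL_prog {q : ℂ} (hq : ‖q‖ < 1) (c : ℕ) :
    Summable fun m : ℕ => gL q (c + N * m) := by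
  refine (summable_gL hq).comp_injective ?_
  intro m m' h
  have h' : c + N * m = c + N * m' := h
  exact Nat.eq_of_mul_eq_mul_left (Nat.pos_of_ne_zero (NeZero.ne N)) (by omega)

/-- `L(c) = ∑_{m ≥ 0} g(c + N m)` -/
def Lsum (N : ℕ) (q : ℂ) (c : ℕ) : ℂ := ∑' m : ℕ, gL q (c + N * m)

/-- the sum over the second coordinate -/
theorem hasSum_sum_Zdiv (τ : ℍ) {a : ℕ} (ha0 : 0 < a) (haN : a < N) :
    HasSum (fun m : ℕ => 2 * π * I * N *
        (gL (ww τ) (N * (m + 1) - a) - gL (ww τ) (N * (m + 1) + a)))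
      (∑ r ∈ range N, Zdiv N ![(a : ℤ), (r : ℤ)] τ - 2 * π * I * a + N * (π * I) +
        2 * π * I * N * gL (ww τ) a) := by
  have hN : N ≠ 0 := NeZero.ne N
  have hNC : (N : ℂ) ≠ 0 := Nat.cast_ne_zero.mpr hN
  have hζ := isPrimitiveRoot_zetaN hN
  have hq := norm_ww_tau_lt_one τ
  have hq0 : ww (τ : ℂ) ≠ 0 := ww_ne_zero _
  set q := ww (τ : ℂ) with hqdef
  set x := ww ((a : ℂ) * τ / N) with hxdef
  have hx0 : x ≠ 0 := ww_ne_zero _
  have hxN : x ^ N = q ^ a := ww_div_pow a τ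
  have hv : ∀ r : ℕ, ¬ ((N : ℤ) ∣ (![(a : ℤ), (r : ℤ)] : Fin 2 → ℤ) 0 ∧
      (N : ℤ) ∣ (![(a : ℤ), (r : ℤ)] : Fin 2 → ℤ) 1) := by
    intro r h
    have h0 : (N : ℤ) ∣ (a : ℤ) := h.1
    have h1 : N ∣ a := by exact_mod_cast h0
    exact absurd (Nat.le_of_dvd ha0 h1) (not_le.mpr haN)
  have h1 : ∀ r ∈ range N, HasSum
      (fun m : ℕ => 2 * π * I * phiTerm (x * zetaN N ^ r) q m)
      (Zdiv N ![(a : ℤ), (r : ℤ)] τ - 2 * π * I * ((a : ℂ) / N) + π * I +
        2 * π * I * hh (x * zetaN N ^ r)) := by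
    intro r _
    have h := hasSum_Zdiv_phi hN ![(a : ℤ), (r : ℤ)] τ (hv r)
    rw [ww_divPt] at h
    simpa using h
  have h2 := hasSum_sum h1
  -- the norms
  have hx1 : ‖x‖ < 1 := by
    apply norm_lt_one_of_pow (n := N)
    rw [hxN]
    exact norm_pow_lt_one hq ha0.ne'
  have hA : ∀ m : ℕ, (q ^ (m + 1) / x) ^ N = q ^ (N * (m + 1) - a) := by
    intro m
    have hle : a ≤ N * (m + 1) := by
      have : N ≤ N * (m + 1) := Nat.le_mul_of_pos_right N (by omega)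
      omega
    rw [div_pow, hxN, ← pow_mul, mul_comm (m + 1) N, pow_sub₀ q hq0 hle, div_eq_mul_inv]
  have hB : ∀ m : ℕ, (q ^ (m + 1) * x) ^ N = q ^ (N * (m + 1) + a) := by
    intro m
    rw [mul_pow, hxN, ← pow_mul, mul_comm (m + 1) N, pow_add]
  have hA1 : ∀ m : ℕ, ‖q ^ (m + 1) / x‖ < 1 := by
    intro m
    apply norm_lt_one_of_pow (n := N)
    rw [hA]
    refine norm_pow_lt_one hq ?_
    have : N ≤ N * (m + 1) := Nat.le_mul_of_pos_right N (by omega)
    omega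
  have hB1 : ∀ m : ℕ, ‖q ^ (m + 1) * x‖ < 1 := by
    intro m
    apply norm_lt_one_of_pow (n := N)
    rw [hB]
    exact norm_pow_lt_one hq (by omega)
  -- the filter
  have hfun : (fun m : ℕ => ∑ r ∈ range N, 2 * π * I * phiTerm (x * zetaN N ^ r) q m) =
      fun m : ℕ => 2 * π * I * N *
        (gL q (N * (m + 1) - a) - gL q (N * (m + 1) + a)) := by
    funext m
    rw [← Finset.mul_sum]
    simp only [phiTerm]
    rw [Finset.sum_sub_distrib]
    have e1 : ∀ r ∈ range N, hh (q ^ (m + 1) / (x * zetaN N ^ r)) =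
        hh (q ^ (m + 1) / x * (zetaN N)⁻¹ ^ r) := by
      intro r _
      congr 1
      rw [inv_pow]
      have : zetaN N ^ r ≠ 0 := pow_ne_zero _ (ww_ne_zero _)
      field_simp
    have e2 : ∀ r ∈ range N, hh (q ^ (m + 1) * (x * zetaN N ^ r)) =
        hh (q ^ (m + 1) * x * zetaN N ^ r) := by
      intro r _
      rw [mul_assoc]
    rw [Finset.sum_congr rfl e1, Finset.sum_congr rfl e2, sum_hh_filter hN hζ.inv (hA1 m),
      sum_hh_filter hN hζ (hB1 m), hA, hB, gL, gL]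
    ring
  have hsum : ∑ r ∈ range N, (Zdiv N ![(a : ℤ), (r : ℤ)] τ - 2 * π * I * ((a : ℂ) / N) + π * I +
        2 * π * I * hh (x * zetaN N ^ r)) =
      ∑ r ∈ range N, Zdiv N ![(a : ℤ), (r : ℤ)] τ - 2 * π * I * a + N * (π * I) +
        2 * π * I * N * gL q a := by
    rw [Finset.sum_add_distrib, Finset.sum_add_distrib, Finset.sum_sub_distrib]
    have e3 : ∑ r ∈ range N, 2 * π * I * hh (x * zetaN N ^ r) = 2 * π * I * (N * gL q a) := by
      rw [← Finset.mul_sum, sum_hh_filter hN hζ hx1, hxN, gL]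
    rw [e3]
    simp only [sum_const, card_range, nsmul_eq_mul]
    field_simp
  rw [hfun, hsum] at h2
  exact h2

theorem sum_Zdiv_eq (τ : ℍ) {a : ℕ} (ha0 : 0 < a) (haN : a < N) :
    ∑ r ∈ range N, Zdiv N ![(a : ℤ), (r : ℤ)] τ =
      2 * π * I * ((a : ℂ) - N / 2 + N * (Lsum N (ww τ) (N - a) - Lsum N (ww τ) a)) := by
  have hq := norm_ww_tau_lt_one τ
  have h := (hasSum_sum_Zdiv τ ha0 haN).tsum_eq
  rw [tsum_mul_left] at h
  have s1 : Summable fun m : ℕ => gL (ww τ) (N * (m + 1) - a) := by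
    have := summable_gL_prog (N := N) hq (N - a)
    refine this.congr fun m => ?_
    congr 1
    have : N * (m + 1) = N * m + N := Nat.mul_succ N m
    omega
  have s2 : Summable fun m : ℕ => gL (ww τ) (N * (m + 1) + a) := by
    have := (summable_nat_add_iff 1).mpr (summable_gL_prog (N := N) hq a)
    refine this.congr fun m => ?_
    congr 1
    ring
  rw [s1.tsum_sub s2] at h
  have e1 : ∑' m : ℕ, gL (ww τ) (N * (m + 1) - a) = Lsum N (ww τ) (N - a) := by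
    rw [Lsum]
    refine tsum_congr fun m => ?_
    congr 1
    have : N * (m + 1) = N * m + N := Nat.mul_succ N m
    omega
  have e2 : ∑' m : ℕ, gL (ww τ) (N * (m + 1) + a) = Lsum N (ww τ) a - gL (ww τ) a := by
    rw [Lsum, (summable_gL_prog hq a).tsum_eq_zero_add]
    simp only [mul_zero, add_zero]
    rw [add_sub_cancel_left]
    refine tsum_congr fun m => ?_
    congr 1
    ring
  rw [e1, e2] at h
  linear_combination (-1 : ℂ) * h

/-! ### the character sums -/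

variable (χ : DirichletCharacter ℂ N)

/-- `∑_{j mod N} χ(j) j` (`= N · B_{1,χ}`) -/
def bernSum : ℂ := ∑ j : ZMod N, χ j * (j.val : ℂ)

/-- `σ_χ(n) = ∑_{d ∣ n} χ(d)` -/
def sigmaChi (n : ℕ) : ℂ := ∑ d ∈ n.divisors, χ (d : ZMod N)

lemma sum_zmod_val (f : ℕ → ℂ) : ∑ r : ZMod N, f r.val = ∑ r ∈ range N, f r := by
  obtain ⟨n, hn⟩ := Nat.exists_eq_succ_of_ne_zero (NeZero.ne N)
  subst hn
  exact Fin.sum_univ_eq_sum_range f (n + 1)

lemma chi_zero_of_odd (hodd : χ (-1) = -1) : χ 0 = 0 := by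
  by_cases h1 : N = 1
  · exfalso
    have : Subsingleton (ZMod N) := ZMod.subsingleton_iff.mpr h1
    have : (-1 : ZMod N) = 1 := Subsingleton.elim _ _
    rw [this, map_one] at hodd
    norm_num at hodd
  · have : Fact (1 < N) := ⟨by have := NeZero.ne N; omega⟩
    exact MulChar.map_nonunit χ not_isUnit_zero

lemma chi_neg (hodd : χ (-1) = -1) (j : ZMod N) : χ (-j) = - χ j := by
  rw [← neg_one_mul, map_mul, hodd, neg_one_mul]

lemma sum_chi_eq_zero (hodd : χ (-1) = -1) : ∑ j : ZMod N, χ j = 0 := by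
  have h := Equiv.sum_comp (Equiv.neg (ZMod N)) (fun j => χ j)
  simp only [Equiv.neg_apply, chi_neg χ hodd, Finset.sum_neg_distrib] at h
  have h2 : (2 : ℂ) * ∑ j : ZMod N, χ j = 0 := by linear_combination -h
  exact (mul_eq_zero.mp h2).resolve_left two_ne_zero

lemma eisFun_eq_sum (τ : ℍ) :
    eisFun χ τ = ∑ j : ZMod N, χ j * ∑ r ∈ range N, Zdiv N ![(j.val : ℤ), (r : ℤ)] τ := by
  rw [eisFun_apply, ← (piFinTwoEquiv fun _ => ZMod N).symm.sum_comp, Fintype.sum_prod_type]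
  refine Finset.sum_congr rfl fun j _ => ?_
  rw [Finset.mul_sum, ← sum_zmod_val (fun r => χ j * Zdiv N ![(j.val : ℤ), (r : ℤ)] τ)]
  refine Finset.sum_congr rfl fun r _ => ?_
  simp only [piFinTwoEquiv_symm_apply]
  have e : repVec (Fin.cons j (Fin.cons r finZeroElim) : Fin 2 → ZMod N) =
      ![(j.val : ℤ), (r.val : ℤ)] := by
    funext i
    fin_cases i <;> rfl
  rw [ZdivM, e]
  rfl

lemma summable_chi_gL {q : ℂ} (hq : ‖q‖ < 1) :
    Summable fun n : ℕ => χ (n : ZMod N) * gL q n := by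
  refine Summable.of_norm_bounded (summable_gL hq).norm fun n => ?_
  rw [norm_mul]
  calc ‖χ (n : ZMod N)‖ * ‖gL q n‖ ≤ 1 * ‖gL q n‖ :=
        mul_le_mul_of_nonneg_right (DirichletCharacter.norm_le_one χ _) (norm_nonneg _)
    _ = ‖gL q n‖ := one_mul _

/-- **`𝔈_χ` in terms of the Lambert series** -/
theorem eisFun_eq (hodd : χ (-1) = -1) (τ : ℍ) :
    eisFun χ τ =
      2 * π * I * (bernSum χ - 2 * N * ∑' n : ℕ, χ (n : ZMod N) * gL (ww τ) n) := by
  have hχ0 := chi_zero_of_odd χ hodd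
  have hq := norm_ww_tau_lt_one τ
  set q := ww (τ : ℂ) with hqdef
  rw [eisFun_eq_sum]
  have h1 : ∀ j : ZMod N, χ j * ∑ r ∈ range N, Zdiv N ![(j.val : ℤ), (r : ℤ)] τ =
      2 * π * I * (χ j * (j.val : ℂ)) - π * I * N * χ j +
        2 * π * I * N * (χ j * Lsum N q (-j).val) - 2 * π * I * N * (χ j * Lsum N q j.val) := by
    intro j
    by_cases hj : j = 0
    · rw [hj, hχ0]
      ring
    · have ha0 : 0 < j.val := ZMod.val_pos.mpr hj
      have haN : j.val < N := ZMod.val_lt j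
      rw [sum_Zdiv_eq τ ha0 haN]
      have : N - j.val = (-j).val := by rw [ZMod.neg_val, if_neg hj]
      rw [this]
      ring
  rw [Finset.sum_congr rfl (fun j _ => h1 j)]
  have hneg : ∑ j : ZMod N, χ j * Lsum N q (-j).val = - ∑ j : ZMod N, χ j * Lsum N q j.val := by
    have h := Equiv.sum_comp (Equiv.neg (ZMod N)) (fun j => χ j * Lsum N q (-j).val)
    simp only [Equiv.neg_apply, neg_neg, chi_neg χ hodd, neg_mul, Finset.sum_neg_distrib] at h
    rw [← h]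
  have hres : ∑ j : ZMod N, χ j * Lsum N q j.val = ∑' n : ℕ, χ (n : ZMod N) * gL q n := by
    rw [Nat.sumByResidueClasses (summable_chi_gL χ hq) N]
    refine Finset.sum_congr rfl fun j _ => ?_
    rw [Lsum, ← tsum_mul_left]
    refine tsum_congr fun m => ?_
    congr 2
    simp
  rw [Finset.sum_sub_distrib, Finset.sum_add_distrib, Finset.sum_sub_distrib, ← Finset.mul_sum,
    ← Finset.mul_sum, ← Finset.mul_sum, ← Finset.mul_sum, sum_chi_eq_zero χ hodd, hneg, hres,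
    bernSum]
  ring

/-- the Lambert series of `χ` as a power series -/
theorem hasSum_lambert_chi {q : ℂ} (hq : ‖q‖ < 1) :
    HasSum (fun n : ℕ => sigmaChi χ n * q ^ n) (∑' n : ℕ, χ (n : ZMod N) * gL q n) := by
  set g : ℕ → ℕ → ℂ := fun d m => if m = 0 then 0 else χ (d : ZMod N) with hg
  have hgb : ∀ d m, ‖g d m‖ ≤ 1 * m := by
    intro d m
    simp only [hg]
    split_ifs with hm
    · simp [hm]
    · have h1 := DirichletCharacter.norm_le_one χ (d : ZMod N)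
      have h2 : (1 : ℝ) ≤ m := by exact_mod_cast Nat.one_le_iff_ne_zero.mpr hm
      linarith
  have hs := X1.Wp.summable_lambert g hgb hq
  have h := X1.Wp.hasSum_lambert g hs
  -- the fibres
  have hfib : ∀ d : ℕ+, HasSum (fun m : ℕ+ => g d m * q ^ ((d : ℕ) * (m : ℕ)))
      (χ ((d : ℕ) : ZMod N) * gL q d) := by
    intro d
    have hqd : ‖q ^ (d : ℕ)‖ < 1 := norm_pow_lt_one hq d.ne_zero
    have h1 := (hasSum_hh hqd).mul_left (χ ((d : ℕ) : ZMod N))
    rw [← hasSum_pnat_iff_hasSum_succ (f := fun m => χ ((d : ℕ) : ZMod N) * (q ^ (d : ℕ)) ^ m)] at h1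
    refine h1.congr_fun fun m => ?_
    simp only [hg, if_neg m.ne_zero, pow_mul]
  have h2 := hs.hasSum.prod_fiberwise hfib
  have e : ∑' c : ℕ+ × ℕ+, g c.1 c.2 * q ^ ((c.1 : ℕ) * (c.2 : ℕ)) =
      ∑' n : ℕ, χ (n : ZMod N) * gL q n := by
    rw [← h2.tsum_eq]
    exact tsum_pnat_eq_tsum_of_eq_zero (f := fun n : ℕ => χ (n : ZMod N) * gL q n) (by
      simp [gL, hh])
  rw [e] at h
  have h3 : (fun n : ℕ+ => (∑ x ∈ ((n : ℕ)).divisorsAntidiagonal, g x.1 x.2) * q ^ (n : ℕ)) =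
      fun n : ℕ+ => (fun n : ℕ => sigmaChi χ n * q ^ n) n := by
    funext n
    congr 1
    rw [sigmaChi, ← Nat.sum_divisorsAntidiagonal (fun d _ => χ (d : ZMod N))]
    refine Finset.sum_congr rfl fun x hx => ?_
    have hx2 : x.2 ≠ 0 := by
      have := (Nat.mem_divisorsAntidiagonal.mp hx).1
      intro h0
      rw [h0, mul_zero] at this
      exact n.ne_zero this.symm
    simp only [hg, if_neg hx2]
  rw [h3] at h
  have h4 := (hasSum_pnat_iff (f := fun n : ℕ => sigmaChi χ n * q ^ n)).mp h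
  simpa [sigmaChi] using h4

/-- the coefficients of `𝔈_χ / 2πi` -/
def eisCoeff (n : ℕ) : ℂ := if n = 0 then bernSum χ else -(2 * N) * sigmaChi χ n

/-- **the `q`-expansion of `𝔈_χ`** -/
theorem hasSum_eisFun (hodd : χ (-1) = -1) (τ : ℍ) :
    HasSum (fun n : ℕ => eisCoeff χ n * ww τ ^ n) ((2 * π * I)⁻¹ * eisFun χ τ) := by
  have hq := norm_ww_tau_lt_one τ
  have h1 := (hasSum_lambert_chi χ hq).mul_left (-(2 * N) : ℂ)
  have h2 := hasSum_ite_eq (0 : ℕ) (bernSum χ)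
  have h3 := h2.add h1
  have h2pi : (2 * π * I : ℂ) ≠ 0 := by
    simp [Real.pi_ne_zero, Complex.I_ne_zero]
  have e : (2 * π * I)⁻¹ * eisFun χ τ =
      bernSum χ + -(2 * N) * ∑' n : ℕ, χ (n : ZMod N) * gL (ww τ) n := by
    rw [eisFun_eq χ hodd]
    field_simp
    ring
  rw [e]
  refine h3.congr_fun fun n => ?_
  rw [eisCoeff]
  by_cases hn : n = 0
  · subst hn
    simp [sigmaChi]
  · rw [if_neg hn, if_neg hn]
    ring

end Fermat.Agent.S48lib.Eis1
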